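/-
PROJECT M (S15), block [E2] (helper27): the unit map of the node.

In main's nodal frame (`S13/Local/NodalDefs`: `y² + a₁ x y = x³ + a₂ x² + a₄ x`, node at the
origin modulo the maximal ideal) let `α, β` be the tangent slopes at the node, i.e. the roots of
`T² + a₁ T - a₂` (`α + β = -a₁`, `α β = -a₂`).  Put `n P = Y P - α X P`, `d P = Y P - β X P`.
Then `n P * d P = X³ + a₄ X`, `n (-P) = -d P`, and for `P, Q` in general position

  `n P * n Q * d (P + Q) - d P * d Q * n (P + Q) = a₄ * ν * (α - β) * (2 λ + a₁)`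

(`y = λ x + ν` the chord or tangent).  So `u = n / d` is multiplicative modulo the maximal ideal on
the points whose `X`-coordinate is a unit.
-/
import Fermat.Agent.S13.Local.NodalRed
import Fermat.Agent.S13.Local.NodalKernelZc

set_option autoImplicit false
set_option linter.unusedSectionVars false

namespace Fermat.Agent.S15.E2.NodeUnit

open Fermat.Agent.S13.Local Fermat.Agent.S13.Local.NodalData

variable {K : Type*} [Field K] {G : Type*} [AddCommGroup G] {a₁ a₂ a₄ : K}
  {D : NodalData K G a₁ a₂ a₄}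

/-! ### The second symmetric function of the chord identity -/

/-- **Chord identity 0**: `X P * X Q + (X P + X Q) * X (P + Q) = a₄ - 2 λ ν - a₁ ν`. -/
theorem Gen.e2 {P Q : G} (h : D.Gen P Q) :
    D.X P * D.X Q + (D.X P + D.X Q) * D.X (P + Q) =
      a₄ - 2 * D.lam P Q * D.nu P Q - a₁ * D.nu P Q := by
  have hX := h.X_add
  have e1 := D.eqn P h.left_ne
  have e2 := D.eqn Q h.right_ne
  have hl := h.lam_mul_sub
  obtain ⟨hP, hQ, hne | ⟨rfl, hT⟩⟩ := h
  · have hd : D.X Q - D.X P ≠ 0 := sub_ne_zero.mpr (Ne.symm hne)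
    have hy₂ : D.Y Q = D.Y P + D.lam P Q * (D.X Q - D.X P) := by linear_combination -hl
    have key : (D.X Q - D.X P) * (2 * D.Y P * D.lam P Q + D.lam P Q ^ 2 * (D.X Q - D.X P)
        + a₁ * (D.Y P + D.X Q * D.lam P Q)
        - (D.X Q ^ 2 + D.X P * D.X Q + D.X P ^ 2 + a₂ * (D.X P + D.X Q) + a₄)) = 0 := by
      rw [hy₂] at e2
      linear_combination e2 - e1
    have key' := (mul_eq_zero.mp key).resolve_left hd
    unfold nu
    linear_combination key' + (D.X P + D.X Q) * hX
  · have hl2 := lam_self_mul hT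
    unfold M T at hl2
    unfold nu
    linear_combination hl2 + 2 * D.X P * hX

/-! ### The two linear forms -/

section Forms

variable (D) (α β : K)

/-- `n P = Y P - α X P`. -/
def n (P : G) : K := D.Y P - α * D.X P

/-- `d P = Y P - β X P`. -/
def d (P : G) : K := D.Y P - β * D.X P

variable {D} {α β}

theorem n_mul_d (hs : α + β = -a₁) (hp : α * β = -a₂) {P : G} (hP : P ≠ 0) :
    n D α P * d D β P = D.X P ^ 3 + a₄ * D.X P := by
  have e := D.eqn P hP
  unfold n d
  linear_combination e - D.X P * D.Y P * hs + D.X P ^ 2 * hp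

theorem n_neg (hs : α + β = -a₁) {P : G} (hP : P ≠ 0) : n D α (-P) = -d D β P := by
  unfold n d
  rw [D.X_neg P hP, D.Y_neg P hP]
  linear_combination (-D.X P) * hs

theorem d_neg (hs : α + β = -a₁) {P : G} (hP : P ≠ 0) : d D β (-P) = -n D α P := by
  unfold n d
  rw [D.X_neg P hP, D.Y_neg P hP]
  linear_combination (-D.X P) * hs

theorem n_sub_d (P : G) : n D α P - d D β P = (β - α) * D.X P := by
  unfold n d; ring

/-- The product of the form `Y - α X` over the three collinear points `P, Q, -(P+Q)`. -/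
theorem prod_n (hs : α + β = -a₁) (hp : α * β = -a₂) {P Q : G} (h : D.Gen P Q) :
    n D α P * n D α Q * d D β (P + Q) =
      -(D.nu P Q ^ 3 + a₄ * D.nu P Q * (D.lam P Q - α) ^ 2) := by
  have hroot : α ^ 2 + a₁ * α - a₂ = 0 := by linear_combination α * hs - hp
  have s1 := h.X_add
  have s2 := Gen.e2 h
  have s3 := h.Phi1
  have y1 := Y_eq_left (D := D) P Q
  have y2 := h.Y_eq_right
  have y3 := h.Y_add
  unfold n d
  rw [y1, y2, y3]
  linear_combination (-((D.lam P Q - α) ^ 3)) * s3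
    + (-((D.lam P Q - α) ^ 2 * D.nu P Q)) * s2
    + (-((D.lam P Q - α) * D.nu P Q ^ 2)) * s1
    + (-((D.lam P Q - α) * D.nu P Q ^ 2)) * hroot
    + (-(((D.lam P Q - α) * D.X P + D.nu P Q) * ((D.lam P Q - α) * D.X Q + D.nu P Q)
        * D.X (P + Q))) * hs

/-- **The multiplicativity defect of `u = n / d` is exactly `a₄ ν (α - β) (2 λ + a₁)`.** -/
theorem hom_exact (hs : α + β = -a₁) (hp : α * β = -a₂) {P Q : G} (h : D.Gen P Q) :
    n D α P * n D α Q * d D β (P + Q) - d D β P * d D β Q * n D α (P + Q) =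
      a₄ * D.nu P Q * (α - β) * (2 * D.lam P Q + a₁) := by
  have h1 := prod_n hs hp h
  have hs' : β + α = -a₁ := by rw [add_comm]; exact hs
  have hp' : β * α = -a₂ := by rw [mul_comm]; exact hp
  have h2 := prod_n hs' hp' h
  -- `h2 : d P * d Q * n (P + Q) = -(ν³ + a₄ ν (λ - β)²)` up to the names of the forms
  have h2' : d D β P * d D β Q * n D α (P + Q) =
      -(D.nu P Q ^ 3 + a₄ * D.nu P Q * (D.lam P Q - β) ^ 2) := h2
  rw [h1, h2']
  linear_combination (a₄ * D.nu P Q * (β - α)) * hs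

end Forms


/-! ### Valuations -/

section Val

variable {Γ₀ : Type*} [LinearOrderedCommGroupWithZero Γ₀] {v : Valuation K Γ₀} {α β : K}

theorem sq_eq_one' {a : Γ₀} (h : a ^ 2 = 1) : a = 1 := by
  rcases pow_eq_one_iff.1 h with h | h
  · exact h
  · norm_num at h

theorem v_two_le' : v (2 : K) ≤ 1 := by
  have : (2 : K) = 1 + 1 := by norm_num
  rw [this]
  exact Valuation.map_add_le v (le_of_eq v.map_one) (le_of_eq v.map_one)

/-- A root of `T² + b T - c` with `b, c` integral is integral. -/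
theorem v_le_one_of_quad {x b c : K} (hb : v b ≤ 1) (hc : v c ≤ 1)
    (h : x ^ 2 + b * x - c = 0) : v x ≤ 1 := by
  by_contra hcon
  rw [not_le] at hcon
  have hx0 : v x ≠ 0 := (lt_trans zero_lt_one hcon).ne'
  have e : x ^ 2 = -(b * x) + c := by linear_combination h
  have h1 : v (x ^ 2) ≤ v x := by
    rw [e]
    refine le_trans (v.map_add _ _) (max_le ?_ (le_trans hc hcon.le))
    rw [Valuation.map_neg, map_mul]
    calc v b * v x ≤ 1 * v x := mul_le_mul_left hb _
      _ = v x := one_mul _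
  rw [map_pow, sq] at h1
  have h2 : v x * v x ≤ v x * 1 := by rwa [mul_one]
  have h3 : v x ≤ 1 := le_of_mul_le_mul_left h2 (lt_trans zero_lt_one hcon)
  exact absurd hcon (not_lt.mpr h3)

theorem v_alpha_le (H : Hyp v a₁ a₂ a₄) (hs : α + β = -a₁) (hp : α * β = -a₂) : v α ≤ 1 :=
  v_le_one_of_quad H.a1 H.a2 (by linear_combination α * hs - hp)

theorem v_beta_le (H : Hyp v a₁ a₂ a₄) (hs : α + β = -a₁) (hp : α * β = -a₂) : v β ≤ 1 :=
  v_le_one_of_quad H.a1 H.a2 (by linear_combination β * hs - hp)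

/-- The two tangent slopes are distinct modulo the maximal ideal. -/
theorem v_alpha_sub_beta (H : Hyp v a₁ a₂ a₄) (hs : α + β = -a₁) (hp : α * β = -a₂) :
    v (α - β) = 1 := by
  have e : (α - β) ^ 2 = a₁ ^ 2 + 4 * a₂ := by
    linear_combination (α + β - a₁) * hs - 4 * hp
  have h1 : v (α - β) ^ 2 = 1 := by rw [← map_pow, e, H.b2]
  exact sq_eq_one' h1

theorem v_n_le (H : Hyp v a₁ a₂ a₄) (hs : α + β = -a₁) (hp : α * β = -a₂) {P : G} (hP : P ≠ 0)
    (hX : v (D.X P) ≤ 1) : v (n D α P) ≤ 1 := by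
  unfold n
  refine le_trans (Valuation.map_sub _ _ _) (max_le (NodalRed.val_Y_le_one D v H hP hX) ?_)
  rw [map_mul]
  exact mul_le_one' (v_alpha_le H hs hp) hX

theorem v_d_le (H : Hyp v a₁ a₂ a₄) (hs : α + β = -a₁) (hp : α * β = -a₂) {P : G} (hP : P ≠ 0)
    (hX : v (D.X P) ≤ 1) : v (d D β P) ≤ 1 := by
  unfold d
  refine le_trans (Valuation.map_sub _ _ _) (max_le (NodalRed.val_Y_le_one D v H hP hX) ?_)
  rw [map_mul]
  exact mul_le_one' (v_beta_le H hs hp) hX

theorem v_n_mul_d (H : Hyp v a₁ a₂ a₄) (hs : α + β = -a₁) (hp : α * β = -a₂) {P : G}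
    (hP : P ≠ 0) (hX : v (D.X P) = 1) : v (n D α P) * v (d D β P) = 1 := by
  rw [← map_mul, n_mul_d hs hp hP]
  have e : D.X P ^ 3 + a₄ * D.X P = D.X P * (D.X P ^ 2 + a₄) := by ring
  rw [e, map_mul, hX, one_mul]
  have h1 : v (D.X P ^ 2) = 1 := by rw [map_pow, hX, one_pow]
  rw [Valuation.map_add_eq_of_lt_left _ (by rw [h1]; exact H.a4), h1]

theorem v_n_eq (H : Hyp v a₁ a₂ a₄) (hs : α + β = -a₁) (hp : α * β = -a₂) {P : G} (hP : P ≠ 0)
    (hX : v (D.X P) = 1) : v (n D α P) = 1 := by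
  have h1 := v_n_le H hs hp hP hX.le
  have h2 := v_d_le H hs hp hP hX.le
  have h3 := v_n_mul_d H hs hp hP hX
  refine le_antisymm h1 ?_
  calc (1 : Γ₀) = v (n D α P) * v (d D β P) := h3.symm
    _ ≤ v (n D α P) * 1 := mul_le_mul_right h2 _
    _ = v (n D α P) := mul_one _

theorem v_d_eq (H : Hyp v a₁ a₂ a₄) (hs : α + β = -a₁) (hp : α * β = -a₂) {P : G} (hP : P ≠ 0)
    (hX : v (D.X P) = 1) : v (d D β P) = 1 := by
  have h1 := v_n_le H hs hp hP hX.le
  have h2 := v_d_le H hs hp hP hX.le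
  have h3 := v_n_mul_d H hs hp hP hX
  refine le_antisymm h2 ?_
  calc (1 : Γ₀) = v (n D α P) * v (d D β P) := h3.symm
    _ ≤ 1 * v (d D β P) := mul_le_mul_left h1 _
    _ = v (d D β P) := one_mul _

/-- `n P` and `d P` are distinct modulo the maximal ideal. -/
theorem v_n_sub_d (H : Hyp v a₁ a₂ a₄) (hs : α + β = -a₁) (hp : α * β = -a₂) {P : G}
    (hX : v (D.X P) = 1) : v (n D α P - d D β P) = 1 := by
  have h1 : v (β - α) = 1 := by
    have : β - α = -(α - β) := by ring
    rw [this, Valuation.map_neg]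
    exact v_alpha_sub_beta H hs hp
  rw [n_sub_d, map_mul, h1, hX, one_mul]

/-- The intercept is a unit and the slope is integral when the three `X`-coordinates are units. -/
theorem v_nu_eq {P Q : G} (h : D.Gen P Q) (hXP : v (D.X P) = 1) (hXQ : v (D.X Q) = 1)
    (hXS : v (D.X (P + Q)) = 1) : v (D.nu P Q) = 1 := by
  have h1 : v (D.nu P Q) ^ 2 = 1 := by
    rw [← map_pow, ← h.Phi1, map_mul, map_mul, hXP, hXQ, hXS, one_mul, one_mul]
  exact sq_eq_one' h1

theorem v_lam_le (H : Hyp v a₁ a₂ a₄) {P Q : G} (h : D.Gen P Q) (hXP : v (D.X P) ≤ 1)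
    (hXQ : v (D.X Q) ≤ 1) (hXS : v (D.X (P + Q)) ≤ 1) : v (D.lam P Q) ≤ 1 := by
  have s1 := h.X_add
  have hc : v (D.X (P + Q) + D.X P + D.X Q + a₂) ≤ 1 :=
    le_trans (v.map_add _ _) (max_le (le_trans (v.map_add _ _)
      (max_le (le_trans (v.map_add _ _) (max_le hXS hXP)) hXQ)) H.a2)
  exact v_le_one_of_quad H.a1 hc (by linear_combination -s1)

/-- **`u = n / d` is multiplicative modulo the maximal ideal.** -/
theorem hom_val (H : Hyp v a₁ a₂ a₄) (hs : α + β = -a₁) (hp : α * β = -a₂) {P Q : G}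
    (h : D.Gen P Q) (hXP : v (D.X P) = 1) (hXQ : v (D.X Q) = 1) (hXS : v (D.X (P + Q)) = 1) :
    v (n D α P * n D α Q * d D β (P + Q) - d D β P * d D β Q * n D α (P + Q)) < 1 := by
  rw [hom_exact hs hp h, map_mul, map_mul, map_mul, v_nu_eq h hXP hXQ hXS,
    v_alpha_sub_beta H hs hp, mul_one, mul_one]
  have hl := v_lam_le H h hXP.le hXQ.le hXS.le
  have h2 : v (2 * D.lam P Q + a₁) ≤ 1 := by
    refine le_trans (v.map_add _ _) (max_le ?_ H.a1)
    rw [map_mul]
    exact mul_le_one' v_two_le' hl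
  calc v a₄ * v (2 * D.lam P Q + a₁) ≤ v a₄ * 1 := mul_le_mul_right h2 _
    _ = v a₄ := mul_one _
    _ < 1 := H.a4

end Val


/-! ### The reduction map of a valuation subring -/

section Red

open IsLocalRing

variable (A : ValuationSubring K)

open Classical in
/-- The total reduction map `K → ResidueField A` (zero outside `A`). -/
noncomputable def red (x : K) : ResidueField A :=
  if hx : x ∈ A then residue A ⟨x, hx⟩ else 0

variable {A}

theorem red_of_mem {x : K} (hx : x ∈ A) : red A x = residue A ⟨x, hx⟩ := dif_pos hx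

theorem red_add {x y : K} (hx : x ∈ A) (hy : y ∈ A) : red A (x + y) = red A x + red A y := by
  rw [red_of_mem hx, red_of_mem hy, red_of_mem (A.add_mem _ _ hx hy), ← map_add]
  rfl

theorem red_mul {x y : K} (hx : x ∈ A) (hy : y ∈ A) : red A (x * y) = red A x * red A y := by
  rw [red_of_mem hx, red_of_mem hy, red_of_mem (A.mul_mem _ _ hx hy), ← map_mul]
  rfl

theorem red_neg {x : K} (hx : x ∈ A) : red A (-x) = -red A x := by
  rw [red_of_mem hx, red_of_mem (A.neg_mem _ hx), ← map_neg]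
  rfl

theorem red_sub {x y : K} (hx : x ∈ A) (hy : y ∈ A) : red A (x - y) = red A x - red A y := by
  rw [sub_eq_add_neg, red_add hx (A.neg_mem _ hy), red_neg hy, sub_eq_add_neg]

theorem red_one : red A (1 : K) = 1 := by
  rw [red_of_mem A.one_mem]
  exact map_one (residue A)

theorem red_zero : red A (0 : K) = 0 := by
  rw [red_of_mem A.zero_mem]
  exact map_zero (residue A)

theorem red_pow {x : K} (hx : x ∈ A) (k : ℕ) : red A (x ^ k) = red A x ^ k := by
  induction k with
  | zero => simp [red_one]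
  | succ k ih => rw [pow_succ, red_mul (A.pow_mem hx k) hx, ih, pow_succ]

theorem red_eq_zero_iff {x : K} (hx : x ∈ A) : red A x = 0 ↔ A.valuation x < 1 := by
  rw [red_of_mem hx, residue_eq_zero_iff, A.valuation_lt_one_iff]

theorem red_eq_iff {x y : K} (hx : x ∈ A) (hy : y ∈ A) :
    red A x = red A y ↔ A.valuation (x - y) < 1 := by
  rw [← sub_eq_zero, ← red_sub hx hy, red_eq_zero_iff (sub_mem hx hy)]

theorem red_ne_zero {x : K} (hx : A.valuation x = 1) : red A x ≠ 0 := by
  have hx' : x ∈ A := (A.valuation_le_one_iff x).mp hx.le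
  rw [Ne, red_eq_zero_iff hx', hx]
  exact lt_irrefl _

theorem mem_of_val_eq_one {x : K} (hx : A.valuation x = 1) : x ∈ A :=
  (A.valuation_le_one_iff x).mp hx.le

theorem red_intCast (m : ℤ) : red A (m : K) = (m : ResidueField A) := by
  rw [red_of_mem (intCast_mem A m)]
  exact map_intCast (residue A) m

theorem red_natCast (m : ℕ) : red A (m : K) = (m : ResidueField A) := by
  rw [red_of_mem (natCast_mem A m)]
  exact map_natCast (residue A) m

theorem red_div {x y : K} (hx : x ∈ A) (hy : A.valuation y = 1) :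
    red A (x / y) = red A x / red A y := by
  have hy' := mem_of_val_eq_one hy
  have hxy : x / y ∈ A := by
    rw [← A.valuation_le_one_iff, map_div₀, hy, div_one]
    exact (A.valuation_le_one_iff x).mpr hx
  have hy0 : y ≠ 0 := by
    rintro rfl
    rw [map_zero] at hy
    exact zero_ne_one hy
  rw [eq_div_iff (red_ne_zero hy), ← red_mul hxy hy', div_mul_cancel₀ _ hy0]

end Red

/-! ### The unit map on the residue field -/

section Ubar

open IsLocalRing

variable {A : ValuationSubring K} {α β : K}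

/-- `ū P = n̄ P / d̄ P ∈ ResidueField A`. -/
noncomputable def ub (D : NodalData K G a₁ a₂ a₄) (A : ValuationSubring K) (α β : K) (P : G) :
    ResidueField A :=
  red A (n D α P) / red A (d D β P)

theorem ub_ne_zero (H : Hyp A.valuation a₁ a₂ a₄) (hs : α + β = -a₁) (hp : α * β = -a₂)
    {P : G} (hP : P ≠ 0) (hX : A.valuation (D.X P) = 1) : ub D A α β P ≠ 0 :=
  div_ne_zero (red_ne_zero (v_n_eq H hs hp hP hX)) (red_ne_zero (v_d_eq H hs hp hP hX))

theorem ub_ne_one (H : Hyp A.valuation a₁ a₂ a₄) (hs : α + β = -a₁) (hp : α * β = -a₂)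
    {P : G} (hP : P ≠ 0) (hX : A.valuation (D.X P) = 1) : ub D A α β P ≠ 1 := by
  have hn := v_n_eq H hs hp hP hX
  have hd := v_d_eq H hs hp hP hX
  intro h
  rw [ub, div_eq_one_iff_eq (red_ne_zero hd),
    red_eq_iff (mem_of_val_eq_one hn) (mem_of_val_eq_one hd), v_n_sub_d H hs hp hX] at h
  exact lt_irrefl _ h

theorem ub_neg (H : Hyp A.valuation a₁ a₂ a₄) (hs : α + β = -a₁) (hp : α * β = -a₂)
    {P : G} (hP : P ≠ 0) (hX : A.valuation (D.X P) = 1) :
    ub D A α β (-P) = (ub D A α β P)⁻¹ := by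
  have hn := mem_of_val_eq_one (v_n_eq H hs hp hP hX)
  have hd := mem_of_val_eq_one (v_d_eq H hs hp hP hX)
  rw [ub, ub, n_neg hs hP, d_neg hs hP, red_neg hd, red_neg hn, neg_div_neg_eq, inv_div]

theorem ub_add (H : Hyp A.valuation a₁ a₂ a₄) (hs : α + β = -a₁) (hp : α * β = -a₂)
    {P Q : G} (h : D.Gen P Q) (hXP : A.valuation (D.X P) = 1) (hXQ : A.valuation (D.X Q) = 1)
    (hXS : A.valuation (D.X (P + Q)) = 1) :
    ub D A α β (P + Q) = ub D A α β P * ub D A α β Q := by
  have hP := h.left_ne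
  have hQ := h.right_ne
  have hS := h.add_ne_zero
  have vnP := v_n_eq H hs hp hP hXP
  have vdP := v_d_eq H hs hp hP hXP
  have vnQ := v_n_eq H hs hp hQ hXQ
  have vdQ := v_d_eq H hs hp hQ hXQ
  have vnS := v_n_eq H hs hp hS hXS
  have vdS := v_d_eq H hs hp hS hXS
  have nP := mem_of_val_eq_one vnP
  have dP := mem_of_val_eq_one vdP
  have nQ := mem_of_val_eq_one vnQ
  have dQ := mem_of_val_eq_one vdQ
  have nS := mem_of_val_eq_one vnS
  have dS := mem_of_val_eq_one vdS
  have key := hom_val H hs hp h hXP hXQ hXS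
  rw [← red_eq_iff (A.mul_mem _ _ (A.mul_mem _ _ nP nQ) dS)
    (A.mul_mem _ _ (A.mul_mem _ _ dP dQ) nS),
    red_mul (A.mul_mem _ _ nP nQ) dS, red_mul nP nQ,
    red_mul (A.mul_mem _ _ dP dQ) nS, red_mul dP dQ] at key
  have e1 := red_ne_zero vdP
  have e2 := red_ne_zero vdQ
  have e3 := red_ne_zero vdS
  unfold ub
  rw [div_mul_div_comm, div_eq_div_iff e3 (mul_ne_zero e1 e2)]
  linear_combination -key

/-- **The order of `ū P`.**  For `P ≠ 0` of prime order `p` (a unit of `A`) with non-singular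
reduction: `ū (k • P) = ū P ^ k` for `1 ≤ k < p`, hence `ū P ^ p = 1`, and `ū P ≠ 1`. -/
theorem ub_nsmul (H : Hyp A.valuation a₁ a₂ a₄) (hs : α + β = -a₁) (hp : α * β = -a₂)
    {p : ℕ} (hpp : p.Prime) (hpv : A.valuation (p : K) = 1) {P : G} (hP : P ≠ 0)
    (hpP : p • P = 0) (hE : D.E0 A.valuation P) :
    (∀ k, 0 < k → k < p → k • P ≠ 0 ∧ A.valuation (D.X (k • P)) = 1) ∧
    (∀ k, 0 < k → k < p → ub D A α β (k • P) = ub D A α β P ^ k) := by
  have : Fact p.Prime := ⟨hpp⟩
  have hord : addOrderOf P = p := addOrderOf_eq_prime hpP hP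
  have hne : ∀ k, 0 < k → k < p → k • P ≠ 0 := by
    intro k hk0 hkp h0
    have hd := addOrderOf_dvd_of_nsmul_eq_zero h0
    rw [hord] at hd
    exact absurd (Nat.le_of_dvd hk0 hd) (not_le.mpr hkp)
  have hunit : ∀ k, 0 < k → k < p → A.valuation (D.X (k • P)) = 1 := by
    intro k hk0 hkp
    have h0 := hne k hk0 hkp
    have hE' := NodalRed.e0_nsmul D A.valuation H hE k
    rcases hE' with h | h
    · exact absurd h h0
    · refine le_antisymm ?_ h
      by_contra hcon
      rw [not_le] at hcon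
      have hK : D.K1 A.valuation (k • P) := Or.inr hcon
      have hz : p • (k • P) = 0 := by
        rw [smul_comm, hpP, smul_zero]
      exact h0 (NodalKernel.eq_zero_of_k1_of_nsmul D A.valuation H hpv (k • P) hK hz)
  refine ⟨fun k hk0 hkp => ⟨hne k hk0 hkp, hunit k hk0 hkp⟩, ?_⟩
  intro k hk0 hkp
  induction k with
  | zero => exact absurd hk0 (lt_irrefl _)
  | succ k ih =>
    rcases Nat.eq_zero_or_pos k with rfl | hkpos
    · simp
    · have hk' : k < p := Nat.lt_of_succ_lt hkp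
      have ih' := ih hkpos hk'
      have hgen : D.Gen (k • P) P := by
        rcases D.gen_or_add_eq_zero (hne k hkpos hk') hP with h | h
        · exact h
        · exfalso
          rw [← succ_nsmul] at h
          exact hne (k + 1) hk0 hkp h
      have hXk := hunit k hkpos hk'
      have hX1 : A.valuation (D.X P) = 1 := by
        have := hunit 1 one_pos hpp.one_lt
        rwa [one_nsmul] at this
      have hXS : A.valuation (D.X (k • P + P)) = 1 := by
        rw [← succ_nsmul]
        exact hunit (k + 1) hk0 hkp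
      rw [succ_nsmul, ub_add H hs hp hgen hXk hX1 hXS, ih', pow_succ]

theorem ub_pow_eq_one (H : Hyp A.valuation a₁ a₂ a₄) (hs : α + β = -a₁) (hp : α * β = -a₂)
    {p : ℕ} (hpp : p.Prime) (hpv : A.valuation (p : K) = 1) {P : G} (hP : P ≠ 0)
    (hpP : p • P = 0) (hE : D.E0 A.valuation P) : ub D A α β P ^ p = 1 := by
  obtain ⟨h1, h2⟩ := ub_nsmul H hs hp hpp hpv hP hpP hE
  have hp1 : 0 < p - 1 ∨ p = 2 := by
    have := hpp.two_le
    omega
  have hX1 : A.valuation (D.X P) = 1 := by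
    have := (h1 1 one_pos hpp.one_lt).2
    rwa [one_nsmul] at this
  have hlast : (p - 1) • P = -P := by
    have h3 : (p - 1) • P + P = 0 := by
      rw [← succ_nsmul, Nat.sub_add_cancel hpp.one_le, hpP]
    exact eq_neg_of_add_eq_zero_left h3
  have hu0 := ub_ne_zero H hs hp hP hX1
  by_cases hp2 : p = 2
  · -- `P = -P`, so `ū P = ū P ⁻¹`
    subst hp2
    have hPP : -P = P := by
      have : (2 - 1) • P = -P := hlast
      simpa using this.symm
    have h4 := ub_neg H hs hp hP hX1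
    rw [hPP] at h4
    rw [sq]
    nth_rewrite 1 [h4]
    exact inv_mul_cancel₀ hu0
  · have hlt : p - 1 < p := Nat.sub_lt hpp.pos one_pos
    have hpos : 0 < p - 1 := by
      have := hpp.two_le
      omega
    have h4 := h2 (p - 1) hpos hlt
    rw [hlast, ub_neg H hs hp hP hX1] at h4
    have : ub D A α β P ^ p = ub D A α β P ^ (p - 1) * ub D A α β P := by
      rw [← pow_succ, Nat.sub_add_cancel hpp.one_le]
    rw [this, ← h4]
    exact inv_mul_cancel₀ hu0

/-- `ū P` has exact order `p`. -/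
theorem orderOf_ub (H : Hyp A.valuation a₁ a₂ a₄) (hs : α + β = -a₁) (hp : α * β = -a₂)
    {p : ℕ} (hpp : p.Prime) (hpv : A.valuation (p : K) = 1) {P : G} (hP : P ≠ 0)
    (hpP : p • P = 0) (hE : D.E0 A.valuation P) : orderOf (ub D A α β P) = p := by
  have h1 := ub_pow_eq_one H hs hp hpp hpv hP hpP hE
  have hX1 : A.valuation (D.X P) = 1 := by
    have := ((ub_nsmul (α := α) (β := β) H hs hp hpp hpv hP hpP hE).1 1 one_pos hpp.one_lt).2
    rwa [one_nsmul] at this
  have h2 := ub_ne_one H hs hp hP hX1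
  have : Fact p.Prime := ⟨hpp⟩
  exact orderOf_eq_prime h1 h2

end Ubar

end Fermat.Agent.S15.E2.NodeUnit
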