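/-
PROJECT M (S15), seam (C-L) of block [A] (helper27).

`W` an integral Weierstrass model, `Q` a Galois-fixed point of prime order `p`, `l ≠ p` a prime of
multiplicative reduction (`l ∣ Δ`, `l ∤ c₄`), `A` a valuation subring of `ℚ̄` over `l`.  If `Q` has
non-singular reduction at `A` (`InZeroComponentAt A Q`) then `p ∣ l - 1` or `p ∣ l + 1`.

Proof: translate a `2`-torsion point reducing to the node to the origin (main's
`S58/Mult/NodeTorsion.exists_node_torsion`), use the unit map `ū` of `NodeUnit` (of exact order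
`p` at `Q`), and observe that the node is rational over the prime field, so that the `l`-power
Frobenius of the residue field fixes the reductions of the coordinates of `Q` and permutes the two
tangent slopes: `ū ^ l = ū` or `ū ^ l = ū⁻¹`.
-/
import Fermat.Agent.S15.E2.NodeUnit
import Fermat.Agent.S58.Mult.Unipotent
import Fermat.Agent.S13.Local.RationalCoords
import Fermat.Prelude.Def_EllipticCurve_ZeroComponentAt

set_option autoImplicit false
set_option linter.unusedSectionVars false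

noncomputable section

namespace Fermat.Agent.S15.E2.SeamCL

/-! ### Frobenius on a Möbius value -/

section Frob

variable {F : Type*} [Field F] {l : ℕ} [Fact l.Prime] [CharP F l]

/-- `x` is fixed by the `l`-power Frobenius. -/
def IsFix (l : ℕ) [Fact l.Prime] [CharP F l] (x : F) : Prop := frobenius F l x = x

theorem IsFix.add {x y : F} (hx : IsFix l x) (hy : IsFix l y) : IsFix l (x + y) := by
  unfold IsFix at *; rw [map_add, hx, hy]

theorem IsFix.sub {x y : F} (hx : IsFix l x) (hy : IsFix l y) : IsFix l (x - y) := by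
  unfold IsFix at *; rw [map_sub, hx, hy]

theorem IsFix.mul {x y : F} (hx : IsFix l x) (hy : IsFix l y) : IsFix l (x * y) := by
  unfold IsFix at *; rw [map_mul, hx, hy]

theorem IsFix.neg {x : F} (hx : IsFix l x) : IsFix l (-x) := by
  unfold IsFix at *; rw [map_neg, hx]

theorem IsFix.div {x y : F} (hx : IsFix l x) (hy : IsFix l y) : IsFix l (x / y) := by
  unfold IsFix at *; rw [map_div₀, hx, hy]

theorem IsFix.pow {x : F} (hx : IsFix l x) (k : ℕ) : IsFix l (x ^ k) := by
  unfold IsFix at *; rw [map_pow, hx]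

theorem isFix_intCast (m : ℤ) : IsFix l (m : F) := by
  unfold IsFix; exact map_intCast (frobenius F l) m

theorem isFix_natCast (m : ℕ) : IsFix l (m : F) := by
  unfold IsFix; exact map_natCast (frobenius F l) m

theorem isFix_ofNat (m : ℕ) [m.AtLeastTwo] : IsFix l (OfNat.ofNat m : F) := by
  rw [← Nat.cast_ofNat (R := F)]; exact isFix_natCast _

/-- **Frobenius on the unit map.**  `ξ, η, b, c` fixed by Frobenius, `α, β` the roots of
`T² + b T - c`: then `u = (η - α ξ) / (η - β ξ)` satisfies `u ^ l = u` or `u ^ l = u⁻¹`. -/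
theorem frob_moebius {ξ η b c α β : F} (hξ : IsFix l ξ) (hη : IsFix l η) (hb : IsFix l b)
    (hc : IsFix l c) (hs : α + β = -b) (hp : α * β = -c) :
    ((η - α * ξ) / (η - β * ξ)) ^ l = (η - α * ξ) / (η - β * ξ) ∨
      ((η - α * ξ) / (η - β * ξ)) ^ l = ((η - α * ξ) / (η - β * ξ))⁻¹ := by
  have hfr : ∀ x : F, x ^ l = frobenius F l x := fun x => (frobenius_def l x).symm
  have hroot : α ^ 2 + b * α - c = 0 := by linear_combination α * hs - hp
  have hroot' : (frobenius F l α) ^ 2 + b * frobenius F l α - c = 0 := by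
    have := congrArg (frobenius F l) hroot
    rw [map_sub, map_add, map_pow, map_mul, map_zero] at this
    unfold IsFix at hb hc
    rw [hb, hc] at this
    exact this
  have hfac : (frobenius F l α - α) * (frobenius F l α - β) = 0 := by
    linear_combination hroot' - frobenius F l α * hs + hp
  have hβ : frobenius F l β = -b - frobenius F l α := by
    have : β = -b - α := by linear_combination hs
    rw [this, map_sub, map_neg]
    unfold IsFix at hb
    rw [hb]
  unfold IsFix at hξ hη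
  rcases mul_eq_zero.mp hfac with h | h
  · left
    have hα : frobenius F l α = α := sub_eq_zero.mp h
    have hβ' : frobenius F l β = β := by rw [hβ, hα]; linear_combination -hs
    rw [hfr, map_div₀, map_sub, map_sub, map_mul, map_mul, hξ, hη, hα, hβ']
  · right
    have hα : frobenius F l α = β := sub_eq_zero.mp h
    have hβ' : frobenius F l β = α := by rw [hβ, hα]; linear_combination -hs
    rw [hfr, map_div₀, map_sub, map_sub, map_mul, map_mul, hξ, hη, hα, hβ', inv_div]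

/-- An element of exact order `p` with `u ^ l = u` or `u ^ l = u⁻¹`: `p ∣ l - 1` or `p ∣ l + 1`. -/
theorem dvd_of_frob {u : F} {p : ℕ} (hu : orderOf u = p) (hu0 : u ≠ 0)
    (h : u ^ l = u ∨ u ^ l = u⁻¹) : p ∣ l - 1 ∨ p ∣ l + 1 := by
  have hl : 1 ≤ l := (Fact.out : l.Prime).one_le
  rcases h with h | h
  · left
    rw [← hu]
    apply orderOf_dvd_of_pow_eq_one
    have h1 : u ^ (l - 1) * u = u := by rw [← pow_succ, Nat.sub_add_cancel hl, h]
    have h2 : u ^ (l - 1) * u = 1 * u := by rw [h1, one_mul]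
    exact mul_right_cancel₀ hu0 h2
  · right
    rw [← hu]
    apply orderOf_dvd_of_pow_eq_one
    rw [pow_succ, h, inv_mul_cancel₀ hu0]

end Frob

/-! ### The residue field of a valuation subring of `ℚ̄` over `l` -/

section Res

open IsLocalRing Fermat.Agent.S15.E2.NodeUnit

local notation "Qbar" => AlgebraicClosure ℚ

variable {A : ValuationSubring Qbar} {l : ℕ}

theorem charP_residue (hl : l.Prime) (hA : A.LiesOverPrime l) : CharP (ResidueField A) l := by
  have h0 : (l : ResidueField A) = 0 := by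
    rw [← red_natCast (A := A) l, red_eq_zero_iff (natCast_mem A l)]
    exact A.mem_nonunits_iff.mp hA
  exact (CharP.charP_iff_prime_eq_zero hl).mpr h0

variable [Fact l.Prime] [CharP (ResidueField A) l]

/-- The reduction of a rational number is fixed by Frobenius. -/
theorem isFix_red_rat (hA : A.LiesOverPrime l) (q : ℚ) :
    IsFix l (red A (algebraMap ℚ Qbar q)) := by
  have hl : l.Prime := Fact.out
  have e : algebraMap ℚ Qbar q = ((q.num : ℤ) : Qbar) / ((q.den : ℕ) : Qbar) := by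
    rw [eq_ratCast, Rat.cast_def]
  by_cases hden : (l : ℤ) ∣ (q.den : ℤ)
  · -- `q ∉ A`, the reduction is `0`
    have hnum : ¬ (l : ℤ) ∣ q.num := by
      intro hn
      have h1 : l ∣ q.num.natAbs := Int.natCast_dvd.mp hn
      have h2 : l ∣ q.den := Int.natCast_dvd_natCast.mp hden
      have h3 := Nat.dvd_gcd h1 h2
      rw [q.reduced] at h3
      exact hl.one_lt.ne' (Nat.dvd_one.mp h3)
    have hv1 : A.valuation ((q.num : ℤ) : Qbar) = 1 :=
      Fermat.Agent.S05.LocalVal.intCast_valuation_eq_one hl hA hnum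
    have hv2 : A.valuation ((q.den : ℕ) : Qbar) < 1 := by
      have := Fermat.Agent.S05.LocalVal.intCast_valuation_lt_one (L := Qbar) hl hA hden
      simpa using this
    have hd0 : A.valuation ((q.den : ℕ) : Qbar) ≠ 0 := by
      rw [Ne, map_eq_zero]
      exact_mod_cast q.den_nz
    have hnot : algebraMap ℚ Qbar q ∉ A := by
      rw [← A.valuation_le_one_iff, e, map_div₀, hv1, not_le, one_div]
      exact (one_lt_inv₀ (zero_lt_iff.mpr hd0)).mpr hv2
    have : red A (algebraMap ℚ Qbar q) = 0 := dif_neg hnot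
    rw [this]
    unfold IsFix
    exact map_zero _
  · have hv2 : A.valuation ((q.den : ℕ) : Qbar) = 1 := by
      have := Fermat.Agent.S05.LocalVal.intCast_valuation_eq_one (L := Qbar) hl hA hden
      simpa using this
    rw [e, red_div (intCast_mem A _) hv2, red_intCast, red_natCast]
    exact (isFix_intCast _).div (isFix_natCast _)

end Res

/-! ### The node is rational over the prime field -/

section Node

open IsLocalRing Fermat.Agent.S15.E2.NodeUnit Fermat.Agent.S13.Local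

local notation "Qbar" => AlgebraicClosure ℚ

variable {A : ValuationSubring Qbar} {l : ℕ} [Fact l.Prime] [CharP (ResidueField A) l]
variable (W : WeierstrassCurve ℤ) {r t : Qbar}

/-- **The node is rational, `x`-coordinate**: `c₄ r ≡ 18 b₆ - b₂ b₄` modulo the maximal ideal. -/
theorem isFix_red_r (hr : r ∈ A)
    (h3 : ((W.a₃ : ℤ) : Qbar) + r * ((W.a₁ : ℤ) : Qbar) + 2 * t = 0)
    (h6 : ((W.a₆ : ℤ) : Qbar) + r * ((W.a₄ : ℤ) : Qbar) + r ^ 2 * ((W.a₂ : ℤ) : Qbar) + r ^ 3
      - t * ((W.a₃ : ℤ) : Qbar) - t ^ 2 - r * t * ((W.a₁ : ℤ) : Qbar) = 0)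
    (h4 : A.valuation (((W.a₄ : ℤ) : Qbar) + 2 * r * ((W.a₂ : ℤ) : Qbar)
      - t * ((W.a₁ : ℤ) : Qbar) + 3 * r ^ 2) < 1)
    (hc4 : A.valuation ((W.c₄ : ℤ) : Qbar) = 1) : IsFix l (red A r) := by
  have key : ((W.c₄ : ℤ) : Qbar) * r - (((18 * W.b₆ - W.b₂ * W.b₄ : ℤ)) : Qbar)
      = (12 * r + ((W.b₂ : ℤ) : Qbar)) * (2 * (((W.a₄ : ℤ) : Qbar) + 2 * r * ((W.a₂ : ℤ) : Qbar)
        - t * ((W.a₁ : ℤ) : Qbar) + 3 * r ^ 2)) := by
    simp only [WeierstrassCurve.c₄, WeierstrassCurve.b₂, WeierstrassCurve.b₄, WeierstrassCurve.b₆]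
    push_cast
    linear_combination (-72 : Qbar) * h6
      + (-18 * (((W.a₃ : ℤ) : Qbar) + r * ((W.a₁ : ℤ) : Qbar) + 2 * t)
          + (12 * r + (((W.a₁ : ℤ) : Qbar) ^ 2 + 4 * ((W.a₂ : ℤ) : Qbar)))
            * ((W.a₁ : ℤ) : Qbar)) * h3
  have h12 : (12 : Qbar) ∈ A := by
    have h := natCast_mem A 12
    rwa [Nat.cast_ofNat] at h
  have h2 : A.valuation (2 : Qbar) ≤ 1 := v_two_le'
  have hv : A.valuation (((W.c₄ : ℤ) : Qbar) * r - (((18 * W.b₆ - W.b₂ * W.b₄ : ℤ)) : Qbar))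
      < 1 := by
    rw [key]
    refine NodalRed.val_mul_lt_one_right ?_ (NodalRed.val_mul_lt_one_right h2 h4)
    exact (A.valuation_le_one_iff _).mpr
      (A.add_mem _ _ (A.mul_mem _ _ h12 hr) (intCast_mem A _))
  have hcr : ((W.c₄ : ℤ) : Qbar) * r ∈ A := A.mul_mem _ _ (intCast_mem A _) hr
  have e1 := (red_eq_iff hcr (intCast_mem A (18 * W.b₆ - W.b₂ * W.b₄))).mpr hv
  rw [red_mul (intCast_mem A _) hr, red_intCast, red_intCast] at e1
  have hc0 : ((W.c₄ : ℤ) : ResidueField A) ≠ 0 := by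
    rw [← red_intCast]; exact red_ne_zero hc4
  have e2 : red A r = ((18 * W.b₆ - W.b₂ * W.b₄ : ℤ) : ResidueField A)
      / ((W.c₄ : ℤ) : ResidueField A) := by
    rw [eq_div_iff hc0, mul_comm]; exact e1
  rw [e2]
  exact (isFix_intCast _).div (isFix_intCast _)

/-- The `y`-partial derivative vanishes at the node. -/
theorem red_rel3 (hr : r ∈ A) (ht : t ∈ A)
    (h3 : ((W.a₃ : ℤ) : Qbar) + r * ((W.a₁ : ℤ) : Qbar) + 2 * t = 0) :
    ((W.a₃ : ℤ) : ResidueField A) + red A r * ((W.a₁ : ℤ) : ResidueField A)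
      + 2 * red A t = 0 := by
  have hA3 : ((W.a₃ : ℤ) : A) + (⟨r, hr⟩ : A) * ((W.a₁ : ℤ) : A) + 2 * (⟨t, ht⟩ : A) = 0 := by
    apply Subtype.ext
    push_cast
    exact h3
  have := congrArg (residue A) hA3
  simp only [map_add, map_mul, map_intCast, map_ofNat, map_zero] at this
  rw [red_of_mem hr, red_of_mem ht]
  exact this

/-- The `x`-partial derivative vanishes at the node. -/
theorem red_rel4 (hr : r ∈ A) (ht : t ∈ A)
    (h4 : A.valuation (((W.a₄ : ℤ) : Qbar) + 2 * r * ((W.a₂ : ℤ) : Qbar)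
      - t * ((W.a₁ : ℤ) : Qbar) + 3 * r ^ 2) < 1) :
    ((W.a₄ : ℤ) : ResidueField A) + 2 * red A r * ((W.a₂ : ℤ) : ResidueField A)
      - red A t * ((W.a₁ : ℤ) : ResidueField A) + 3 * red A r ^ 2 = 0 := by
  have hA4 : residue A (((W.a₄ : ℤ) : A) + 2 * (⟨r, hr⟩ : A) * ((W.a₂ : ℤ) : A)
      - (⟨t, ht⟩ : A) * ((W.a₁ : ℤ) : A) + 3 * (⟨r, hr⟩ : A) ^ 2) = 0 := by
    rw [residue_eq_zero_iff, A.valuation_lt_one_iff]
    push_cast
    exact h4
  simp only [map_add, map_sub, map_mul, map_pow, map_intCast, map_ofNat] at hA4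
  rw [red_of_mem hr, red_of_mem ht]
  exact hA4

/-- **The node is rational, `y`-coordinate.** -/
theorem isFix_red_t (hr : r ∈ A) (ht : t ∈ A)
    (h3 : ((W.a₃ : ℤ) : Qbar) + r * ((W.a₁ : ℤ) : Qbar) + 2 * t = 0)
    (h4 : A.valuation (((W.a₄ : ℤ) : Qbar) + 2 * r * ((W.a₂ : ℤ) : Qbar)
      - t * ((W.a₁ : ℤ) : Qbar) + 3 * r ^ 2) < 1)
    (hb2 : A.valuation (((W.a₁ : ℤ) : Qbar) ^ 2 + 4 * (((W.a₂ : ℤ) : Qbar) + 3 * r)) = 1)
    (hrfix : IsFix l (red A r)) : IsFix l (red A t) := by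
  have e1 := red_rel3 W hr ht h3
  have e2 := red_rel4 W hr ht h4
  have e3 : ((W.a₁ : ℤ) : ResidueField A) ^ 2
      + 4 * (((W.a₂ : ℤ) : ResidueField A) + 3 * red A r) ≠ 0 := by
    have hB2 : residue A (((W.a₁ : ℤ) : A) ^ 2 + 4 * (((W.a₂ : ℤ) : A) + 3 * (⟨r, hr⟩ : A)))
        ≠ 0 := by
      intro hlt
      rw [residue_eq_zero_iff, A.valuation_lt_one_iff] at hlt
      have hlt' : A.valuation (((W.a₁ : ℤ) : Qbar) ^ 2 + 4 * (((W.a₂ : ℤ) : Qbar) + 3 * r))
          < 1 := by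
        push_cast at hlt
        exact hlt
      rw [hb2] at hlt'
      exact lt_irrefl _ hlt'
    simp only [map_add, map_mul, map_pow, map_intCast, map_ofNat] at hB2
    rw [red_of_mem hr]
    exact hB2
  unfold IsFix at hrfix ⊢
  have f1 := congrArg (frobenius (ResidueField A) l) e1
  simp only [map_add, map_mul, map_intCast, map_ofNat, map_zero, hrfix] at f1
  have f2 := congrArg (frobenius (ResidueField A) l) e2
  simp only [map_add, map_sub, map_mul, map_pow, map_intCast, map_ofNat, map_zero, hrfix] at f2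
  by_contra hne
  have hd : frobenius (ResidueField A) l (red A t) - red A t ≠ 0 := sub_ne_zero.mpr hne
  have h2 : (2 : ResidueField A) = 0 := by
    have : (2 : ResidueField A) * (frobenius (ResidueField A) l (red A t) - red A t) = 0 := by
      linear_combination f1 - e1
    exact (mul_eq_zero.mp this).resolve_right hd
  have h1 : ((W.a₁ : ℤ) : ResidueField A) = 0 := by
    have : ((W.a₁ : ℤ) : ResidueField A)
        * (frobenius (ResidueField A) l (red A t) - red A t) = 0 := by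
      linear_combination e2 - f2
    exact (mul_eq_zero.mp this).resolve_right hd
  apply e3
  rw [h1]
  linear_combination (2 * (((W.a₂ : ℤ) : ResidueField A) + 3 * red A r)) * h2

/-- The reduction of a numeral is fixed by Frobenius. -/
theorem isFix_red_ofNat (m : ℕ) [m.AtLeastTwo] : IsFix l (red A (OfNat.ofNat m : Qbar)) := by
  rw [← Nat.cast_ofNat (R := Qbar), red_natCast]
  exact isFix_natCast _

end Node

/-! ### The nodal frame at a multiplicative prime -/

section Frame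

open WeierstrassCurve WeierstrassCurve.Affine WeierstrassCurve.Affine.Point
open Fermat.Agent.S13.Local Fermat.Agent.S13.Local.NodalInst
open Fermat.Agent.S13.CU.VarChange
open Fermat.Agent.S05.FreyLeg
open Fermat.Agent.S58.Mult.Unipotent
open IsLocalRing Fermat.Agent.S15.E2.NodeUnit

local notation "Qbar" => AlgebraicClosure ℚ
local notation "GQ" => (AlgebraicClosure ℚ ≃ₐ[ℚ] AlgebraicClosure ℚ)

/-- In a nodal frame, a point whose `X` lies in the maximal ideal has `Y` in the maximal ideal. -/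
theorem v_Y_lt_one {K : Type*} [Field K] {G : Type*} [AddCommGroup G] {a₁ a₂ a₄ : K}
    {D : NodalData K G a₁ a₂ a₄} {Γ₀ : Type*} [LinearOrderedCommGroupWithZero Γ₀]
    {v : Valuation K Γ₀} (H : NodalData.Hyp v a₁ a₂ a₄) {P : G} (hP : P ≠ 0)
    (hX : v (D.X P) < 1) : v (D.Y P) < 1 := by
  have hY := NodalRed.val_Y_le_one D v H hP hX.le
  have e : D.Y P ^ 2 = D.X P * (D.X P ^ 2 + a₂ * D.X P + a₄ - a₁ * D.Y P) := by
    linear_combination D.eqn P hP
  have hb : v (D.X P ^ 2 + a₂ * D.X P + a₄ - a₁ * D.Y P) ≤ 1 := by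
    refine NodalRed.val_sub_le_one (NodalRed.val_add_le_one (NodalRed.val_add_le_one ?_ ?_)
      H.a4.le) (NodalRed.val_mul_le_one H.a1 hY)
    · exact NodalRed.val_pow_le_one hX.le 2
    · exact NodalRed.val_mul_le_one H.a2 hX.le
  have h1 : v (D.Y P) ^ 2 < 1 := by
    rw [← map_pow, e]
    exact NodalRed.val_mul_lt_one_left hX hb
  by_contra hc
  rw [not_lt] at hc
  exact absurd h1 (not_lt.mpr (one_le_pow₀ hc))

/-- **The nodal frame** (first half of main's `unipotent_of_multiplicative`). -/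
theorem exists_frame (W : WeierstrassCurve ℤ) {q : ℕ} (hq : q.Prime) (hqΔ : (q : ℤ) ∣ W.Δ)
    (hqc : ¬ (q : ℤ) ∣ W.c₄) (hΔ0 : W.Δ ≠ 0) (A : ValuationSubring Qbar)
    (hA : A.LiesOverPrime q) :
    ∃ r t : Qbar, r ∈ A ∧ t ∈ A ∧
      ((W.a₃ : ℤ) : Qbar) + r * ((W.a₁ : ℤ) : Qbar) + 2 * t = 0 ∧
      ((W.a₆ : ℤ) : Qbar) + r * ((W.a₄ : ℤ) : Qbar) + r ^ 2 * ((W.a₂ : ℤ) : Qbar) + r ^ 3
        - t * ((W.a₃ : ℤ) : Qbar) - t ^ 2 - r * t * ((W.a₁ : ℤ) : Qbar) = 0 ∧
      A.valuation (((W.a₄ : ℤ) : Qbar) + 2 * r * ((W.a₂ : ℤ) : Qbar)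
        - t * ((W.a₁ : ℤ) : Qbar) + 3 * r ^ 2) < 1 ∧
      (V (EQ W) r t).a₁ = ((W.a₁ : ℤ) : Qbar) ∧
      (V (EQ W) r t).a₂ = ((W.a₂ : ℤ) : Qbar) + 3 * r ∧
      IsNodalForm (V (EQ W) r t) ∧
      NodalData.Hyp A.valuation (V (EQ W) r t).a₁ (V (EQ W) r t).a₂ (V (EQ W) r t).a₄ := by
  have hint : ∀ n : ℤ, A.valuation ((n : ℤ) : Qbar) ≤ 1 := fun n =>
    (A.valuation_le_one_iff _).mpr (intCast_mem A n)
  have h2 : (2 : Qbar) ≠ 0 := two_ne_zero
  obtain ⟨r, t, hr, ht, h3, h6, h4⟩ :=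
    Fermat.Agent.S58.Mult.NodeTorsion.exists_node_torsion (A := A) ((EQ W)⁄Qbar) h2
      (by rw [a₁_eq]; exact hint _) (by rw [a₂_eq]; exact hint _) (by rw [a₃_eq]; exact hint _)
      (by rw [a₄_eq]; exact hint _) (by rw [a₆_eq]; exact hint _)
      (by rw [Δ_eq]; exact Fermat.Agent.S05.LocalVal.intCast_valuation_lt_one hq hA hqΔ)
      (by rw [c₄_eq]; exact Fermat.Agent.S05.LocalVal.intCast_valuation_eq_one hq hA hqc)
  have hrA : r ∈ A := (A.valuation_le_one_iff _).mp hr
  have htA : t ∈ A := (A.valuation_le_one_iff _).mp ht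
  have ha1 : (V (EQ W) r t).a₁ = ((EQ W)⁄Qbar).a₁ := by
    simp [V, variableChange_a₁]
  have ha2 : (V (EQ W) r t).a₂ = ((EQ W)⁄Qbar).a₂ + 3 * r := by
    simp [V, variableChange_a₂]
  have ha3 : (V (EQ W) r t).a₃ = 0 := by
    simp only [V, variableChange_a₃, trans_r, trans_t]
    rw [h3, mul_zero]
  have ha4 : (V (EQ W) r t).a₄
      = ((EQ W)⁄Qbar).a₄ + 2 * r * ((EQ W)⁄Qbar).a₂ - t * ((EQ W)⁄Qbar).a₁ + 3 * r ^ 2 := by
    simp [V, variableChange_a₄]
  have ha6 : (V (EQ W) r t).a₆ = 0 := by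
    simp only [V, variableChange_a₆, trans_r, trans_t]
    rw [h6, mul_zero]
  have hΔ : (V (EQ W) r t).Δ ≠ 0 := by
    simp only [V, variableChange_Δ]
    rw [Δ_eq]
    simp
    exact hΔ0
  have hV : IsNodalForm (V (EQ W) r t) := ⟨ha3, ha6, hΔ⟩
  have hle : ∀ {a b : Qbar}, A.valuation a ≤ 1 → A.valuation b ≤ 1 → A.valuation (a * b) ≤ 1 := by
    intro a b ha hb
    rw [map_mul]
    calc A.valuation a * A.valuation b ≤ 1 * 1 := mul_le_mul' ha hb
      _ = 1 := one_mul 1
  have hadd : ∀ {a b : Qbar}, A.valuation a ≤ 1 → A.valuation b ≤ 1 →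
      A.valuation (a + b) ≤ 1 :=
    fun ha hb => le_trans (A.valuation.map_add _ _) (max_le ha hb)
  have hnat : ∀ n : ℕ, A.valuation ((n : ℕ) : Qbar) ≤ 1 :=
    fun n => (A.valuation_le_one_iff _).mpr (natCast_mem A n)
  have H : NodalData.Hyp A.valuation (V (EQ W) r t).a₁ (V (EQ W) r t).a₂ (V (EQ W) r t).a₄ := by
    refine ⟨?_, ?_, ?_, ?_⟩
    · rw [ha1, a₁_eq]; exact hint _
    · rw [ha2, a₂_eq]
      refine hadd (hint _) (hle ?_ hr)
      have : (3 : Qbar) = ((3 : ℕ) : Qbar) := by norm_num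
      rw [this]; exact hnat 3
    · rw [ha4]; exact h4
    · have hc4 : (V (EQ W) r t).c₄ = ((EQ W)⁄Qbar).c₄ := by
        simp [V, variableChange_c₄]
      have e : ((V (EQ W) r t).a₁ ^ 2 + 4 * (V (EQ W) r t).a₂) ^ 2
          = (V (EQ W) r t).c₄ + 48 * (V (EQ W) r t).a₄ := by
        rw [WeierstrassCurve.c₄, WeierstrassCurve.b₂, WeierstrassCurve.b₄, ha3]; ring
      have h48 : A.valuation (48 * (V (EQ W) r t).a₄) < 1 := by
        rw [map_mul]
        have : (48 : Qbar) = ((48 : ℕ) : Qbar) := by norm_num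
        calc A.valuation (48 : Qbar) * A.valuation (V (EQ W) r t).a₄
            ≤ 1 * A.valuation (V (EQ W) r t).a₄ := by
              refine mul_le_mul_left ?_ _
              rw [this]; exact hnat 48
          _ = A.valuation (V (EQ W) r t).a₄ := one_mul _
          _ < 1 := by rw [ha4]; exact h4
      have hc4v : A.valuation (V (EQ W) r t).c₄ = 1 := by
        rw [hc4, c₄_eq]
        exact Fermat.Agent.S05.LocalVal.intCast_valuation_eq_one hq hA hqc
      have h : A.valuation (((V (EQ W) r t).a₁ ^ 2 + 4 * (V (EQ W) r t).a₂) ^ 2) = 1 := by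
        rw [e, Valuation.map_add_eq_of_lt_left _ (by rw [hc4v]; exact h48), hc4v]
      rw [map_pow] at h
      exact (pow_eq_one_iff_of_nonneg zero_le two_ne_zero).mp h
  refine ⟨r, t, hrA, htA, ?_, ?_, ?_, ?_, ?_, hV, H⟩
  · rw [a₃_eq, a₁_eq] at h3; exact h3
  · rw [a₆_eq, a₄_eq, a₂_eq, a₃_eq, a₁_eq] at h6; exact h6
  · rw [a₄_eq, a₂_eq, a₁_eq] at h4; exact h4
  · rw [ha1, a₁_eq]
  · rw [ha2, a₂_eq]

end Frame

/-! ### The seam (C-L) -/

section Main

open WeierstrassCurve WeierstrassCurve.Affine WeierstrassCurve.Affine.Point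
open Fermat.Agent.S13.Local Fermat.Agent.S13.Local.NodalInst
open Fermat.Agent.S13.CU.VarChange
open Fermat.Agent.S58.Mult.Unipotent
open IsLocalRing Fermat.Agent.S15.E2.NodeUnit

local notation "Qbar" => AlgebraicClosure ℚ
local notation "GQ" => (AlgebraicClosure ℚ ≃ₐ[ℚ] AlgebraicClosure ℚ)

/-- **Non-singular reduction in the nodal frame.**  A point of the zero component at `A` has its
translated `X`-coordinate outside the maximal ideal. -/
theorem e0_of_inZero (W : WeierstrassCurve ℤ) {A : ValuationSubring Qbar} {r t : Qbar}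
    (hr : r ∈ A) (ht : t ∈ A)
    (h3 : ((W.a₃ : ℤ) : Qbar) + r * ((W.a₁ : ℤ) : Qbar) + 2 * t = 0)
    (h4 : A.valuation (((W.a₄ : ℤ) : Qbar) + 2 * r * ((W.a₂ : ℤ) : Qbar)
      - t * ((W.a₁ : ℤ) : Qbar) + 3 * r ^ 2) < 1)
    (hV : IsNodalForm (V (EQ W) r t))
    (H : NodalData.Hyp A.valuation (V (EQ W) r t).a₁ (V (EQ W) r t).a₂ (V (EQ W) r t).a₄)
    {Q : ((EQ W)⁄Qbar).Point} (hQ0 : W.InZeroComponentAt A Q) :
    (nodalData hV).E0 A.valuation ((phi (W' := EQ W) r t).symm Q) := by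
  set Q' := (phi (W' := EQ W) r t).symm Q with hQ'
  have hphi : phi (W' := EQ W) r t Q' = Q := AddEquiv.apply_symm_apply _ _
  by_cases hQ'0 : Q' = 0
  · exact Or.inl hQ'0
  right
  have hX := ptX_phi (W' := EQ W) r t hQ'0
  have hY := ptY_phi (W' := EQ W) r t hQ'0
  rw [hphi] at hX hY
  have hQne : Q ≠ 0 := by
    intro h
    apply hQ'0
    rw [hQ', h, _root_.map_zero]
  rcases hQ0 with h0 | ⟨x, y, hns, hQ, hcase⟩
  · exact absurd h0 hQne
  have hx : ptX ((EQ W)⁄Qbar) Q = x := by rw [hQ]; rfl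
  have hy : ptY ((EQ W)⁄Qbar) Q = y := by rw [hQ]; rfl
  rw [hx] at hX
  rw [hy] at hY
  show 1 ≤ A.valuation (ptX (V (EQ W) r t) Q')
  have eX : ptX (V (EQ W) r t) Q' = x - r := by linear_combination -hX
  have eY : ptY (V (EQ W) r t) Q' = y - t := by linear_combination -hY
  by_contra hcon
  rw [not_le] at hcon
  have hX'A : ptX (V (EQ W) r t) Q' ∈ A := (A.valuation_le_one_iff _).mp hcon.le
  have hxA : x ∈ A := by
    rw [hX]; exact A.add_mem _ _ hX'A hr
  rcases hcase with hnot | ⟨hx', hy', hred⟩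
  · exact hnot hxA
  have hYlt : A.valuation (ptY (V (EQ W) r t) Q') < 1 :=
    v_Y_lt_one (D := nodalData hV) H hQ'0 hcon
  have hxr : red A x = red A r := by
    rw [red_eq_iff hx' hr, ← eX]; exact hcon
  have hyt : red A y = red A t := by
    rw [red_eq_iff hy' ht, ← eY]; exact hYlt
  rw [Affine.nonsingular_iff'] at hred
  obtain ⟨-, hor⟩ := hred
  rw [← red_of_mem hx', ← red_of_mem hy', hxr, hyt] at hor
  have e1 := red_rel3 W hr ht h3
  have e2 := red_rel4 W hr ht h4
  have c1 : (W.map (Int.castRingHom (ResidueField A))).a₁ = ((W.a₁ : ℤ) : ResidueField A) := rfl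
  have c2 : (W.map (Int.castRingHom (ResidueField A))).a₂ = ((W.a₂ : ℤ) : ResidueField A) := rfl
  have c3 : (W.map (Int.castRingHom (ResidueField A))).a₃ = ((W.a₃ : ℤ) : ResidueField A) := rfl
  have c4 : (W.map (Int.castRingHom (ResidueField A))).a₄ = ((W.a₄ : ℤ) : ResidueField A) := rfl
  rcases hor with h | h
  · apply h
    show (W.map (Int.castRingHom (ResidueField A))).a₁ * red A t
      - (3 * red A r ^ 2 + 2 * (W.map (Int.castRingHom (ResidueField A))).a₂ * red A r
        + (W.map (Int.castRingHom (ResidueField A))).a₄) = 0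
    rw [c1, c2, c4]
    linear_combination -e2
  · apply h
    show 2 * red A t + (W.map (Int.castRingHom (ResidueField A))).a₁ * red A r
      + (W.map (Int.castRingHom (ResidueField A))).a₃ = 0
    rw [c1, c3]
    linear_combination e1

/-- **Seam (C-L).**  A Galois-fixed point of prime order `p` lying in the zero component at a
prime `l ≠ p` of multiplicative reduction: `p ∣ l - 1` or `p ∣ l + 1`. -/
theorem dvd_pred_or_succ {p : ℕ} (hp : p.Prime) (W : WeierstrassCurve ℤ) (hΔ : W.Δ ≠ 0)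
    (Q : ((W.map (Int.castRingHom ℚ))⁄(AlgebraicClosure ℚ)).Point)
    (hQfix : ∀ σ : AlgebraicClosure ℚ ≃ₐ[ℚ] AlgebraicClosure ℚ, σ • Q = Q)
    (hQord : addOrderOf Q = p) {l : ℕ} (hl : l.Prime) (hlp : l ≠ p) (hlΔ : (l : ℤ) ∣ W.Δ)
    (hlc : ¬ (l : ℤ) ∣ W.c₄) (A : ValuationSubring (AlgebraicClosure ℚ))
    (hA : A.LiesOverPrime l) (hQ0 : W.InZeroComponentAt A Q) : p ∣ l - 1 ∨ p ∣ l + 1 := by
  have : Fact l.Prime := ⟨hl⟩
  have : CharP (ResidueField A) l := charP_residue hl hA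
  obtain ⟨r, t, hr, ht, h3, h6, h4, ha1, ha2, hV, H⟩ := exists_frame W hl hlΔ hlc hΔ A hA
  -- the translated point
  have hQne : Q ≠ 0 := by
    intro h
    rw [h, addOrderOf_zero] at hQord
    exact hp.one_lt.ne hQord
  have hpQ : p • Q = 0 := by rw [← hQord]; exact addOrderOf_nsmul_eq_zero Q
  set Q' := (phi (W' := EQ W) r t).symm Q with hQ'
  have hphi : phi (W' := EQ W) r t Q' = Q := AddEquiv.apply_symm_apply _ _
  have hQ'0 : Q' ≠ 0 := by
    intro h
    apply hQne
    rw [← hphi, h, _root_.map_zero]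
  have hpQ' : p • Q' = 0 := by rw [hQ', ← map_nsmul, hpQ, _root_.map_zero]
  have hE : (nodalData hV).E0 A.valuation Q' := e0_of_inZero W hr ht h3 h4 hV H hQ0
  have hpv : A.valuation ((p : ℕ) : Qbar) = 1 :=
    Fermat.Agent.S05.LocalVal.natCast_prime_valuation_eq_one hl hA hp (Ne.symm hlp)
  -- the tangent slopes
  obtain ⟨s, hs2⟩ := IsAlgClosed.exists_pow_nat_eq
    ((V (EQ W) r t).a₁ ^ 2 + 4 * (V (EQ W) r t).a₂) (n := 2) two_pos
  set α : Qbar := (-(V (EQ W) r t).a₁ + s) / 2 with hα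
  set β : Qbar := (-(V (EQ W) r t).a₁ - s) / 2 with hβ
  have hs : α + β = -(V (EQ W) r t).a₁ := by rw [hα, hβ]; ring
  have hpr : α * β = -(V (EQ W) r t).a₂ := by
    rw [hα, hβ]; linear_combination (-1 / 4 : Qbar) * hs2
  have hαA : α ∈ A := (A.valuation_le_one_iff _).mp (v_alpha_le H hs hpr)
  have hβA : β ∈ A := (A.valuation_le_one_iff _).mp (v_beta_le H hs hpr)
  -- the order of the unit
  have hord := orderOf_ub (D := nodalData hV) (α := α) (β := β) H hs hpr hp hpv hQ'0 hpQ' hE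
  have hX1 : A.valuation ((nodalData hV).X Q') = 1 := by
    have := ((ub_nsmul (D := nodalData hV) (α := α) (β := β) H hs hpr hp hpv hQ'0 hpQ' hE).1 1
      one_pos hp.one_lt).2
    rwa [one_nsmul] at this
  have hu0 := ub_ne_zero (D := nodalData hV) (α := α) (β := β) H hs hpr hQ'0 hX1
  -- the coordinates
  have hXA : ptX (V (EQ W) r t) Q' ∈ A := mem_of_val_eq_one hX1
  have hYA : ptY (V (EQ W) r t) Q' ∈ A :=
    (A.valuation_le_one_iff _).mp (NodalRed.val_Y_le_one (nodalData hV) A.valuation H hQ'0 hX1.le)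
  have hX := ptX_phi (W' := EQ W) r t hQ'0
  have hY := ptY_phi (W' := EQ W) r t hQ'0
  rw [hphi] at hX hY
  obtain ⟨qx, hqx⟩ := Fermat.Agent.S13.Local.RationalCoords.exists_rat_ptX (W' := EQ W) hQfix
  obtain ⟨qy, hqy⟩ := Fermat.Agent.S13.Local.RationalCoords.exists_rat_ptY (W' := EQ W) hQfix
  have hxA : algebraMap ℚ Qbar qx ∈ A := by rw [hqx, hX]; exact A.add_mem _ _ hXA hr
  have hyA : algebraMap ℚ Qbar qy ∈ A := by rw [hqy, hY]; exact A.add_mem _ _ hYA ht
  have eX : ptX (V (EQ W) r t) Q' = algebraMap ℚ Qbar qx - r := by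
    rw [hqx]; linear_combination -hX
  have eY : ptY (V (EQ W) r t) Q' = algebraMap ℚ Qbar qy - t := by
    rw [hqy]; linear_combination -hY
  -- Frobenius-fixed reductions
  have hc4 : A.valuation ((W.c₄ : ℤ) : Qbar) = 1 :=
    Fermat.Agent.S05.LocalVal.intCast_valuation_eq_one hl hA hlc
  have hrfix : IsFix l (red A r) := isFix_red_r W hr h3 h6 h4 hc4
  have hb2 : A.valuation (((W.a₁ : ℤ) : Qbar) ^ 2 + 4 * (((W.a₂ : ℤ) : Qbar) + 3 * r)) = 1 := by
    have := H.b2
    rwa [ha1, ha2] at this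
  have htfix : IsFix l (red A t) := isFix_red_t W hr ht h3 h4 hb2 hrfix
  have hξ : IsFix l (red A (ptX (V (EQ W) r t) Q')) := by
    rw [eX, red_sub hxA hr]
    exact (isFix_red_rat hA qx).sub hrfix
  have hη : IsFix l (red A (ptY (V (EQ W) r t) Q')) := by
    rw [eY, red_sub hyA ht]
    exact (isFix_red_rat hA qy).sub htfix
  have h3A : (3 : Qbar) ∈ A := by
    have h := natCast_mem A 3
    rwa [Nat.cast_ofNat] at h
  have hb : IsFix l (red A (V (EQ W) r t).a₁) := by
    rw [ha1, red_intCast]; exact isFix_intCast _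
  have hc : IsFix l (red A (V (EQ W) r t).a₂) := by
    rw [ha2, red_add (intCast_mem A _) (A.mul_mem _ _ h3A hr), red_mul h3A hr, red_intCast]
    exact (isFix_intCast _).add ((isFix_red_ofNat 3).mul hrfix)
  have ha1A : (V (EQ W) r t).a₁ ∈ A := (A.valuation_le_one_iff _).mp H.a1
  have ha2A : (V (EQ W) r t).a₂ ∈ A := (A.valuation_le_one_iff _).mp H.a2
  have hs' : red A α + red A β = -red A (V (EQ W) r t).a₁ := by
    rw [← red_add hαA hβA, hs, red_neg ha1A]
  have hp' : red A α * red A β = -red A (V (EQ W) r t).a₂ := by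
    rw [← red_mul hαA hβA, hpr, red_neg ha2A]
  have hub : ub (nodalData hV) A α β Q'
      = (red A (ptY (V (EQ W) r t) Q') - red A α * red A (ptX (V (EQ W) r t) Q'))
        / (red A (ptY (V (EQ W) r t) Q') - red A β * red A (ptX (V (EQ W) r t) Q')) := by
    unfold ub n d
    rw [nodalData_X, nodalData_Y, red_sub hYA (A.mul_mem _ _ hαA hXA), red_mul hαA hXA,
      red_sub hYA (A.mul_mem _ _ hβA hXA), red_mul hβA hXA]
  have hfr := frob_moebius (l := l) hξ hη hb hc hs' hp'
  rw [← hub] at hfr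
  exact dvd_of_frob hord hu0 hfr

end Main

end Fermat.Agent.S15.E2.SeamCL
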