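/-
PROJECT M (S15), block [E2] (helper27): the discriminant of a superlattice.

For period pairs `L`, `L'` with `L.lattice ≤ L'.lattice` of finite odd index and a system `R` of
representatives of the non-zero classes of `L'.lattice` modulo `L.lattice`:

  `(g₂(L')³ - 27 g₃(L')²) * ∏_{r ∈ R} ℘'[L] r ^ 4 = (g₂(L)³ - 27 g₃(L)²) ^ (R.card + 1)`.

This is the lattice form of the identity `Δ(E/C) * ∏_{Q ∈ C∖0} ψ₂(Q)⁴ = Δ(E)^N` for Vélu's quotient.
Proof: for a half period `h` of `L` the function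
`(℘[L] z - ℘[L] h) * ∏_{r} (℘[L] (z + r) - ℘[L] h)` is a constant multiple of `℘[L'] z - ℘[L'] h`
(Liouville); evaluate at the other half periods and use the half-period identity of `L`.
-/
import Fermat.Agent.S13.CU.HalfPeriods

set_option autoImplicit false

noncomputable section

namespace Fermat.Agent.S15.E2.DiscLattice

open Complex Filter Topology
open scoped PeriodPair
open Fermat.Agent.S13.CU.Liouville Fermat.Agent.S13.CU.HalfPeriods

/-! ### Algebra: three distinct roots of `4x³ - g₂x - g₃` -/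

/-- If `a, b, c` are pairwise distinct roots of `4x³ - g₂x - g₃` then
`g₂³ - 27 g₃² = 16 (a-b)² (a-c)² (b-c)²`. -/
theorem discr_of_three_roots {g2 g3 a b c : ℂ}
    (ha : 4 * a ^ 3 - g2 * a - g3 = 0) (hb : 4 * b ^ 3 - g2 * b - g3 = 0)
    (hc : 4 * c ^ 3 - g2 * c - g3 = 0) (hab : a ≠ b) (hac : a ≠ c) (hbc : b ≠ c) :
    g2 ^ 3 - 27 * g3 ^ 2 = 16 * ((a - b) ^ 2 * (a - c) ^ 2 * (b - c) ^ 2) := by
  have h12 : b - a ≠ 0 := sub_ne_zero.mpr (Ne.symm hab)
  have h13 : c - a ≠ 0 := sub_ne_zero.mpr (Ne.symm hac)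
  have h23 : c - b ≠ 0 := sub_ne_zero.mpr (Ne.symm hbc)
  have e1 : g2 = 4 * (a ^ 2 + a * b + b ^ 2) := by
    apply mul_left_cancel₀ h12
    linear_combination ha - hb
  have e2 : g2 = 4 * (a ^ 2 + a * c + c ^ 2) := by
    apply mul_left_cancel₀ h13
    linear_combination ha - hc
  have e3 : (c - b) * (a + b + c) = 0 := by
    linear_combination (-1 / 4 : ℂ) * (e2 - e1)
  have hs : a + b + c = 0 := (mul_eq_zero.mp e3).resolve_left h23
  have hc' : c = -(a + b) := by linear_combination hs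
  have hg3 : g3 = 4 * a ^ 3 - g2 * a := by linear_combination (-1 : ℂ) * ha
  rw [hg3, e1, hc']
  ring

/-! ### `z² (℘ z - c) → 1` at the origin -/

/-- `z² (℘[L] z - c)` tends to `1` as `z → 0`, `z ≠ 0`. -/
theorem tendsto_sq_mul_weierstrassP_sub (L : PeriodPair) (c : ℂ) :
    Tendsto (fun z => z ^ 2 * (℘[L] z - c)) (𝓝[≠] 0) (𝓝 1) := by
  have hcont : ContinuousAt (fun z : ℂ => z ^ 2 * ℘[L - (0 : ℂ)] z + 1 - z ^ 2 * c) 0 := by
    have h1 : ContinuousAt ℘[L - (0 : ℂ)] 0 := (L.analyticAt_weierstrassPExcept 0).continuousAt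
    have h2 : ContinuousAt (fun z : ℂ => z ^ 2) 0 := (continuous_pow 2).continuousAt
    exact ((h2.mul h1).add continuousAt_const).sub (h2.mul continuousAt_const)
  have h3 : Tendsto (fun z : ℂ => z ^ 2 * ℘[L - (0 : ℂ)] z + 1 - z ^ 2 * c) (𝓝[≠] 0) (𝓝 1) := by
    have h4 : Tendsto (fun z : ℂ => z ^ 2 * ℘[L - (0 : ℂ)] z + 1 - z ^ 2 * c) (𝓝 0) (𝓝 1) := by
      have := hcont.tendsto
      simpa using this
    exact h4.mono_left nhdsWithin_le_nhds
  refine h3.congr' ?_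
  filter_upwards [self_mem_nhdsWithin] with z (hz : z ≠ 0)
  have h := L.ite_eq_one_sub_sq_mul_weierstrassP 0 (zero_mem _) z
  rw [if_neg hz] at h
  simp only [sub_zero, ne_eq, OfNat.ofNat_ne_zero, not_false_eq_true, zero_pow, div_zero] at h
  rw [mul_sub, h]


/-! ### Systems of representatives -/

/-- `R` is a system of representatives of the non-zero classes of `L'.lattice` modulo
`L.lattice`. -/
structure IsReps (L L' : PeriodPair) (R : Finset ℂ) : Prop where
  le : L.lattice ≤ L'.lattice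
  mem : ∀ r ∈ R, r ∈ L'.lattice
  notMem : ∀ r ∈ R, r ∉ L.lattice
  inj : ∀ r ∈ R, ∀ s ∈ R, r - s ∈ L.lattice → r = s
  cover : ∀ l ∈ L'.lattice, l ∈ L.lattice ∨ ∃ r ∈ R, l - r ∈ L.lattice

namespace IsReps

variable {L L' : PeriodPair} {R : Finset ℂ}

theorem mem' (H : IsReps L L' R) {r : ℂ} (hr : r ∈ insert 0 R) : r ∈ L'.lattice := by
  rcases Finset.mem_insert.mp hr with rfl | hr
  · exact zero_mem _
  · exact H.mem r hr

theorem inj' (H : IsReps L L' R) {r s : ℂ} (hr : r ∈ insert 0 R) (hs : s ∈ insert 0 R)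
    (h : r - s ∈ L.lattice) : r = s := by
  rcases Finset.mem_insert.mp hr with rfl | hr <;> rcases Finset.mem_insert.mp hs with rfl | hs
  · rfl
  · exfalso
    apply H.notMem s hs
    have : s = -(0 - s) := by ring
    rw [this]
    exact neg_mem h
  · exfalso
    apply H.notMem r hr
    simpa using h
  · exact H.inj r hr s hs h

theorem cover' (H : IsReps L L' R) {l : ℂ} (hl : l ∈ L'.lattice) :
    ∃ r, r ∈ insert 0 R ∧ l - r ∈ L.lattice := by
  rcases H.cover l hl with h | ⟨r, hr, h⟩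
  · exact ⟨0, Finset.mem_insert_self _ _, by simpa using h⟩
  · exact ⟨r, Finset.mem_insert_of_mem hr, h⟩

open Classical in
/-- The representative of an element of `L'.lattice`. -/
def rep (H : IsReps L L' R) (x : ℂ) : ℂ :=
  if h : x ∈ L'.lattice then (H.cover' h).choose else 0

theorem rep_mem (H : IsReps L L' R) {x : ℂ} (hx : x ∈ L'.lattice) : H.rep x ∈ insert 0 R := by
  rw [rep, dif_pos hx]
  exact (H.cover' hx).choose_spec.1

theorem sub_rep_mem (H : IsReps L L' R) {x : ℂ} (hx : x ∈ L'.lattice) :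
    x - H.rep x ∈ L.lattice := by
  rw [rep, dif_pos hx]
  exact (H.cover' hx).choose_spec.2

theorem rep_eq (H : IsReps L L' R) {x r : ℂ} (hx : x ∈ L'.lattice) (hr : r ∈ insert 0 R)
    (h : x - r ∈ L.lattice) : H.rep x = r := by
  apply H.inj' (H.rep_mem hx) hr
  have : H.rep x - r = (x - r) - (x - H.rep x) := by ring
  rw [this]
  exact sub_mem h (H.sub_rep_mem hx)

/-- Translating by an element of `L'.lattice` permutes the classes. -/
theorem prod_translate (H : IsReps L L' R) {f : ℂ → ℂ}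
    (hf : ∀ w, ∀ l ∈ L.lattice, f (w + l) = f w) {l : ℂ} (hl : l ∈ L'.lattice) (z : ℂ) :
    ∏ r ∈ insert 0 R, f (z + l + r) = ∏ r ∈ insert 0 R, f (z + r) := by
  refine Finset.prod_bij (fun r _ => H.rep (r + l)) ?_ ?_ ?_ ?_
  · intro r hr
    exact H.rep_mem (add_mem (H.mem' hr) hl)
  · intro r hr s hs hrs
    apply H.inj' hr hs
    have h1 := H.sub_rep_mem (add_mem (H.mem' hr) hl)
    have h2 := H.sub_rep_mem (add_mem (H.mem' hs) hl)
    rw [hrs] at h1
    have : r - s = (r + l - H.rep (s + l)) - (s + l - H.rep (s + l)) := by ring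
    rw [this]
    exact sub_mem h1 h2
  · intro t ht
    have hmem : t - l ∈ L'.lattice := sub_mem (H.mem' ht) hl
    refine ⟨H.rep (t - l), H.rep_mem hmem, ?_⟩
    apply H.rep_eq (add_mem (H.mem' (H.rep_mem hmem)) hl) ht
    have : H.rep (t - l) + l - t = -((t - l) - H.rep (t - l)) := by ring
    rw [this]
    exact neg_mem (H.sub_rep_mem hmem)
  · intro r hr
    have h1 := H.sub_rep_mem (add_mem (H.mem' hr) hl)
    have : z + l + r = z + H.rep (r + l) + (r + l - H.rep (r + l)) := by ring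
    rw [this, hf _ _ h1]

/-- A half period of `L` is not in `L'` when some odd multiple of every element of `L'` lies in
`L`. -/
theorem half_notMem {m : ℕ} (hm : Odd m)
    (hmul : ∀ l ∈ L'.lattice, (m : ℂ) * l ∈ L.lattice) {h : ℂ} (hh : h ∉ L.lattice)
    (h2 : 2 * h ∈ L.lattice) : h ∉ L'.lattice := by
  intro hmem
  apply hh
  obtain ⟨k, rfl⟩ := hm
  have h1 := hmul h hmem
  have h3 : h = ((2 * k + 1 : ℕ) : ℂ) * h - (k : ℤ) • (2 * h) := by
    push_cast
    simp only [zsmul_eq_mul]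
    push_cast
    ring
  rw [h3]
  exact sub_mem h1 (L.lattice.smul_mem _ h2)

end IsReps


/-! ### The numerator `∏_r (℘[L] (z + r) - e)` -/

section Num

variable {L L' : PeriodPair} {R : Finset ℂ}

/-- The product of the translates `℘[L] (z + r) - e` over all classes (including `r = 0`). -/
def num (L : PeriodPair) (R : Finset ℂ) (e : ℂ) (z : ℂ) : ℂ :=
  ∏ r ∈ insert 0 R, (℘[L] (z + r) - e)

theorem num_eq_prod (e : ℂ) :
    num L R e = ∏ r ∈ insert 0 R, fun z => ℘[L] (z + r) - e := by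
  funext z
  simp [num, Finset.prod_apply]

theorem meromorphic_shift (L : PeriodPair) (e r : ℂ) :
    Meromorphic (fun z => ℘[L] (z + r) - e) := by
  have hAm : Meromorphic (fun w => ℘[L] w - e) := meromorphic_weierstrassP_sub_const L e
  show Meromorphic (fun z => (fun w => ℘[L] w - e) (z + r))
  exact Meromorphic.meromorphic_fun_comp_add_const_iff_meromorphic.mpr hAm

theorem order_shift (L : PeriodPair) (e r z₀ : ℂ) :
    meromorphicOrderAt (fun z => ℘[L] (z + r) - e) z₀ =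
      meromorphicOrderAt (fun w => ℘[L] w - e) (z₀ + r) := by
  exact meromorphicOrderAt_fun_comp_add_const_eq_meromorphicOrderAt
    (f := fun w => ℘[L] w - e) (c := r) (x := z₀)

theorem meromorphic_num (e : ℂ) : Meromorphic (num L R e) := by
  intro z
  rw [num_eq_prod]
  exact MeromorphicAt.prod fun r _ => meromorphic_shift L e r z

theorem order_num (e z₀ : ℂ) :
    meromorphicOrderAt (num L R e) z₀ =
      ∑ r ∈ insert 0 R, meromorphicOrderAt (fun w => ℘[L] w - e) (z₀ + r) := by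
  rw [num_eq_prod, meromorphicOrderAt_prod fun r _ => meromorphic_shift L e r z₀]
  exact Finset.sum_congr rfl fun r _ => order_shift L e r z₀

theorem num_add_mem (H : IsReps L L' R) (e : ℂ) (z : ℂ) {l : ℂ} (hl : l ∈ L'.lattice) :
    num L R e (z + l) = num L R e z :=
  H.prod_translate (f := fun w => ℘[L] w - e)
    (fun w l hl => by simp only [weierstrassP_add_mem L w hl]) hl z

/-- A sum in `WithTop ℤ` with one term `≥ k` and all others `≥ 0` is `≥ k`. -/
theorem le_sum_of_le {s : Finset ℂ} {g : ℂ → WithTop ℤ} {r₀ : ℂ} (hr₀ : r₀ ∈ s) {k : WithTop ℤ}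
    (h0 : k ≤ g r₀) (hrest : ∀ r ∈ s, r ≠ r₀ → 0 ≤ g r) : k ≤ ∑ r ∈ s, g r := by
  rw [← Finset.add_sum_erase s g hr₀]
  calc k = k + 0 := (add_zero k).symm
    _ ≤ g r₀ + ∑ r ∈ s.erase r₀, g r :=
      add_le_add h0 (Finset.sum_nonneg fun r hr =>
        hrest r (Finset.mem_of_mem_erase hr) (Finset.ne_of_mem_erase hr))

/-- At a point of `L'` the numerator has at most a double pole. -/
theorem order_num_of_mem (H : IsReps L L' R) (e : ℂ) {z₀ : ℂ} (hz : z₀ ∈ L'.lattice) :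
    -2 ≤ meromorphicOrderAt (num L R e) z₀ := by
  rw [order_num]
  have hneg : -z₀ ∈ L'.lattice := neg_mem hz
  have hr₀ := H.rep_mem hneg
  have hmem : z₀ + H.rep (-z₀) ∈ L.lattice := by
    have h1 := neg_mem (H.sub_rep_mem hneg)
    have : z₀ + H.rep (-z₀) = -(-z₀ - H.rep (-z₀)) := by ring
    rw [this]
    exact h1
  refine le_sum_of_le hr₀ ?_ ?_
  · rw [order_weierstrassP_sub_const L e hmem]
  · intro r hr hne
    apply order_weierstrassP_sub_const_nonneg
    intro hmem'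
    apply hne
    apply H.inj' hr hr₀
    have : r - H.rep (-z₀) = (z₀ + r) - (z₀ + H.rep (-z₀)) := by ring
    rw [this]
    exact sub_mem hmem' hmem

/-- Off `L'` the numerator is regular. -/
theorem order_num_of_notMem (H : IsReps L L' R) (e : ℂ) {z₀ : ℂ} (hz : z₀ ∉ L'.lattice) :
    0 ≤ meromorphicOrderAt (num L R e) z₀ := by
  rw [order_num]
  refine Finset.sum_nonneg fun r hr => ?_
  apply order_weierstrassP_sub_const_nonneg
  intro hmem
  apply hz
  have : z₀ = (z₀ + r) - r := by ring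
  rw [this]
  exact sub_mem (H.le hmem) (H.mem' hr)

/-- At the points congruent to the half period `h` modulo `L'` the numerator vanishes doubly. -/
theorem order_num_of_half (H : IsReps L L' R) {h : ℂ} (hh : h ∉ L.lattice)
    (h2 : 2 * h ∈ L.lattice) {z₀ : ℂ} (hz : z₀ ∉ L'.lattice) (hzh : h - z₀ ∈ L'.lattice) :
    2 ≤ meromorphicOrderAt (num L R (℘[L] h)) z₀ := by
  rw [order_num]
  have hr₀ := H.rep_mem hzh
  have hl : -(h - z₀ - H.rep (h - z₀)) ∈ L.lattice := neg_mem (H.sub_rep_mem hzh)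
  have heq : z₀ + H.rep (h - z₀) = h + -(h - z₀ - H.rep (h - z₀)) := by ring
  refine le_sum_of_le hr₀ ?_ ?_
  · rw [heq, order_weierstrassP_sub_const_add_mem L _ h hl]
    exact two_le_order_half L hh h2
  · intro r hr _
    apply order_weierstrassP_sub_const_nonneg
    intro hmem
    apply hz
    have : z₀ = (z₀ + r) - r := by ring
    rw [this]
    exact sub_mem (H.le hmem) (H.mem' hr)

end Num


/-! ### Liouville: the numerator is a constant multiple of `℘[L'] z - ℘[L'] h` -/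

section Liouville

variable {L L' : PeriodPair} {R : Finset ℂ}

/-- `num z * (℘[L'] (z + h) - ℘[L'] h)`: a pole-free `L'`-periodic function. -/
def aux (L L' : PeriodPair) (R : Finset ℂ) (h z : ℂ) : ℂ :=
  num L R (℘[L] h) z * (℘[L'] (z + h) - ℘[L'] h)

theorem aux_eq_mul (h : ℂ) :
    aux L L' R h = num L R (℘[L] h) * fun z => ℘[L'] (z + h) - ℘[L'] h := by
  funext z
  simp [aux]

theorem meromorphic_aux (h : ℂ) : Meromorphic (aux L L' R h) := by
  intro z
  rw [aux_eq_mul]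
  exact (meromorphic_num _ z).mul (meromorphic_shift L' (℘[L'] h) h z)

theorem aux_add_mem (H : IsReps L L' R) (h z : ℂ) {l : ℂ} (hl : l ∈ L'.lattice) :
    aux L L' R h (z + l) = aux L L' R h z := by
  have : z + l + h = z + h + l := by ring
  simp only [aux, num_add_mem H _ z hl, this, weierstrassP_add_mem L' _ hl]

theorem order_aux_nonneg (H : IsReps L L' R) {h : ℂ} (hh : h ∉ L.lattice)
    (h2 : 2 * h ∈ L.lattice) (hh' : h ∉ L'.lattice) (z₀ : ℂ) :
    0 ≤ meromorphicOrderAt (aux L L' R h) z₀ := by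
  have h2' : 2 * h ∈ L'.lattice := H.le h2
  rw [aux_eq_mul, meromorphicOrderAt_mul (meromorphic_num _ z₀)
    (meromorphic_shift L' (℘[L'] h) h z₀), order_shift]
  by_cases hz : z₀ ∈ L'.lattice
  · have h1 := order_num_of_mem H (℘[L] h) hz
    have h3 : meromorphicOrderAt (fun w => ℘[L'] w - ℘[L'] h) (z₀ + h) =
        meromorphicOrderAt (fun w => ℘[L'] w - ℘[L'] h) h := by
      rw [add_comm]
      exact order_weierstrassP_sub_const_add_mem L' _ h hz
    have h4 := two_le_order_half L' hh' h2'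
    rw [h3]
    calc (0 : WithTop ℤ) = (-2) + 2 := by norm_num
      _ ≤ _ := add_le_add h1 h4
  · by_cases hzh : z₀ + h ∈ L'.lattice
    · have h1 : meromorphicOrderAt (fun w => ℘[L'] w - ℘[L'] h) (z₀ + h) = -2 :=
        order_weierstrassP_sub_const L' _ hzh
      have hmem : h - z₀ ∈ L'.lattice := by
        have : h - z₀ = 2 * h - (z₀ + h) := by ring
        rw [this]
        exact sub_mem h2' hzh
      have h3 := order_num_of_half H hh h2 hz hmem
      rw [h1]
      calc (0 : WithTop ℤ) = 2 + (-2) := by norm_num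
        _ ≤ _ := add_le_add h3 le_rfl
    · exact add_nonneg (order_num_of_notMem H _ hz)
        (order_weierstrassP_sub_const_nonneg L' _ hzh)

theorem continuousAt_num (H : IsReps L L' R) (e : ℂ) {z : ℂ} (hz : z ∉ L'.lattice) :
    ContinuousAt (num L R e) z := by
  unfold num
  refine tendsto_finsetProd _ fun r hr => ?_
  show ContinuousAt (fun w => ℘[L] (w + r) - e) z
  have hzr : z + r ∉ L.lattice := by
    intro hmem
    apply hz
    have : z = (z + r) - r := by ring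
    rw [this]
    exact sub_mem (H.le hmem) (H.mem' hr)
  have h1 : ContinuousAt ℘[L] (z + r) := (L.analyticOnNhd_weierstrassP (z + r) hzr).continuousAt
  have h2 : ContinuousAt (fun w => ℘[L] (w + r)) z :=
    ContinuousAt.comp (f := fun w : ℂ => w + r) (g := ℘[L]) h1
      (continuous_id.add continuous_const).continuousAt
  exact h2.sub continuousAt_const

theorem continuousAt_aux (H : IsReps L L' R) (h : ℂ) {z : ℂ} (hz : z ∉ L'.lattice)
    (hzh : z + h ∉ L'.lattice) : ContinuousAt (aux L L' R h) z := by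
  unfold aux
  have h1 : ContinuousAt ℘[L'] (z + h) := (L'.analyticOnNhd_weierstrassP (z + h) hzh).continuousAt
  have h2 : ContinuousAt (fun w => ℘[L'] (w + h)) z :=
    ContinuousAt.comp (f := fun w : ℂ => w + h) (g := ℘[L']) h1
      (continuous_id.add continuous_const).continuousAt
  exact (continuousAt_num H _ hz).mul (h2.sub continuousAt_const)

theorem zero_notMem (H : IsReps L L' R) : (0 : ℂ) ∉ R := fun h0 => H.notMem 0 h0 (zero_mem _)

/-- `z² · num z → ∏_{r ∈ R} (℘[L] r - e)` at the origin. -/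
theorem tendsto_sq_mul_num (H : IsReps L L' R) (e : ℂ) :
    Tendsto (fun z => z ^ 2 * num L R e z) (𝓝[≠] 0) (𝓝 (∏ r ∈ R, (℘[L] r - e))) := by
  have h1 := tendsto_sq_mul_weierstrassP_sub L e
  have h2 : Tendsto (fun z => ∏ r ∈ R, (℘[L] (z + r) - e)) (𝓝[≠] 0)
      (𝓝 (∏ r ∈ R, (℘[L] r - e))) := by
    refine tendsto_finsetProd _ fun r hr => ?_
    have hr' : (0 : ℂ) + r ∉ L.lattice := by
      rw [zero_add]
      exact H.notMem r hr
    have h3 : ContinuousAt ℘[L] ((0 : ℂ) + r) :=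
      (L.analyticOnNhd_weierstrassP (0 + r) hr').continuousAt
    have h4 : ContinuousAt (fun w => ℘[L] (w + r)) 0 :=
      ContinuousAt.comp (f := fun w : ℂ => w + r) (g := ℘[L]) h3
        (continuous_id.add continuous_const).continuousAt
    have h5 : ContinuousAt (fun w => ℘[L] (w + r) - e) 0 := h4.sub continuousAt_const
    have h6 := h5.tendsto
    simp only [zero_add] at h6
    exact h6.mono_left nhdsWithin_le_nhds
  have h7 := h1.mul h2
  rw [one_mul] at h7
  refine h7.congr' ?_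
  filter_upwards with z
  rw [num, Finset.prod_insert (zero_notMem H), add_zero]
  ring

/-- **The key relation.** For a half period `h` of `L` (not in `L'`):
`∏_{r ∈ {0} ∪ R} (℘[L] (z + r) - ℘[L] h) = ∏_{r ∈ R} (℘[L] r - ℘[L] h) · (℘[L'] z - ℘[L'] h)`. -/
theorem num_eq (H : IsReps L L' R) {h : ℂ} (hh : h ∉ L.lattice) (h2 : 2 * h ∈ L.lattice)
    (hh' : h ∉ L'.lattice) {z : ℂ} (hz : z ∉ L'.lattice) (hzh : z + h ∉ L'.lattice) :
    num L R (℘[L] h) z = (∏ r ∈ R, (℘[L] r - ℘[L] h)) * (℘[L'] z - ℘[L'] h) := by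
  have h2' : 2 * h ∈ L'.lattice := H.le h2
  obtain ⟨c₂, hc₂⟩ := exists_const_of_periodic_of_order_nonneg L' (meromorphic_aux h)
    (fun z l hl => aux_add_mem H h z hl) (order_aux_nonneg H hh h2 hh')
  obtain ⟨c', hc'0, hc'⟩ := exists_halfProd_eq L' hh' h2'
  -- the relation up to the constants
  have key : ∀ w, w ∉ L'.lattice → w + h ∉ L'.lattice →
      num L R (℘[L] h) w * c' = c₂ * (℘[L'] w - ℘[L'] h) := by
    intro w hw hwh
    have e1 : aux L L' R h w = c₂ := eq_of_eventuallyEq_const (hc₂ w) (continuousAt_aux H h hw hwh)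
    have e2 := hc' w hw hwh
    simp only [halfProd] at e2
    simp only [aux] at e1
    rw [← e2, ← e1]
    ring
  -- the constants, from the behaviour at the origin
  have hconst : (∏ r ∈ R, (℘[L] r - ℘[L] h)) * c' = c₂ := by
    have t1 : Tendsto (fun w => w ^ 2 * num L R (℘[L] h) w * c') (𝓝[≠] 0)
        (𝓝 ((∏ r ∈ R, (℘[L] r - ℘[L] h)) * c')) :=
      (tendsto_sq_mul_num H (℘[L] h)).mul tendsto_const_nhds
    have t2 : Tendsto (fun w => c₂ * (w ^ 2 * (℘[L'] w - ℘[L'] h))) (𝓝[≠] 0) (𝓝 (c₂ * 1)) :=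
      tendsto_const_nhds.mul (tendsto_sq_mul_weierstrassP_sub L' (℘[L'] h))
    rw [mul_one] at t2
    refine tendsto_nhds_unique t1 (t2.congr' ?_)
    have hopen : {w : ℂ | w + h ∉ L'.lattice} ∈ 𝓝 (0 : ℂ) := by
      have hcont : ContinuousAt (fun w : ℂ => w + h) 0 :=
        (continuous_id.add continuous_const).continuousAt
      have hmem : ((L'.lattice : Set ℂ)ᶜ) ∈ 𝓝 ((0 : ℂ) + h) := by
        rw [zero_add]
        exact L'.isClosed_lattice.isOpen_compl.mem_nhds hh'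
      exact hcont.preimage_mem_nhds hmem
    have hopen2 := L'.compl_lattice_sdiff_singleton_mem_nhds 0
    filter_upwards [self_mem_nhdsWithin, nhdsWithin_le_nhds hopen, nhdsWithin_le_nhds hopen2]
      with w hw0 hwh hw
    have hw' : w ∉ L'.lattice := fun hmem => hw ⟨hmem, hw0⟩
    have := key w hw' hwh
    rw [mul_assoc, this]
    ring
  have hk := key z hz hzh
  rw [← hconst] at hk
  apply mul_right_cancel₀ hc'0
  rw [hk]
  ring

end Liouville


/-! ### Evaluation at the half periods -/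

section Eval

variable {L L' : PeriodPair} {R : Finset ℂ}

/-- `X m = ∏_{r ∈ R} (℘[L] r - ℘[L] m)`. -/
def X (L : PeriodPair) (R : Finset ℂ) (m : ℂ) : ℂ := ∏ r ∈ R, (℘[L] r - ℘[L] m)

/-- For half periods `a, b, c` of `L` with `a + b ≡ c`:
`(℘ b - ℘ a)^(|R|+1) · X c = X a · X b · (℘[L'] b - ℘[L'] a)`. -/
theorem pair_rel (H : IsReps L L' R) {m : ℕ} (hm : Odd m)
    (hmul : ∀ l ∈ L'.lattice, (m : ℂ) * l ∈ L.lattice) {a b c : ℂ}
    (ha : a ∉ L.lattice) (ha2 : 2 * a ∈ L.lattice) (hb : b ∉ L.lattice)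
    (hb2 : 2 * b ∈ L.lattice) (hc : c ∉ L.lattice) (hc2 : 2 * c ∈ L.lattice)
    (habc : a + b - c ∈ L.lattice) :
    (℘[L] b - ℘[L] a) ^ (R.card + 1) * X L R c =
      X L R a * X L R b * (℘[L'] b - ℘[L'] a) := by
  have ha' : a ∉ L'.lattice := IsReps.half_notMem hm hmul ha ha2
  have hb' : b ∉ L'.lattice := IsReps.half_notMem hm hmul hb hb2
  have hc' : c ∉ L'.lattice := IsReps.half_notMem hm hmul hc hc2
  have hab' : a + b ∉ L'.lattice := by
    intro hmem
    apply hc'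
    have : c = (a + b) - (a + b - c) := by ring
    rw [this]
    exact sub_mem hmem (H.le habc)
  have hba' : b + a ∉ L'.lattice := by rwa [add_comm]
  have hab : a + b ∉ L.lattice := fun hmem => hab' (H.le hmem)
  have hPc : ℘[L] (a + b) = ℘[L] c := by
    have : a + b = c + (a + b - c) := by ring
    rw [this, weierstrassP_add_mem L c habc]
  have hnum := num_eq H ha ha2 ha' hb' hba'
  -- the factors
  have hfac : ∀ r ∈ R, (℘[L] (b + r) - ℘[L] a) * (℘[L] r - ℘[L] b) =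
      (℘[L] b - ℘[L] a) * (℘[L] r - ℘[L] c) := by
    intro r hr
    have hrL : r ∉ L.lattice := H.notMem r hr
    have hrb : r + b ∉ L.lattice := by
      intro hmem
      apply hb'
      have : b = (r + b) - r := by ring
      rw [this]
      exact sub_mem (H.le hmem) (H.mem r hr)
    have h1 := halfProd_eq L hb hb2 ha hab hrL hrb
    rw [hPc] at h1
    rw [add_comm b r]
    linear_combination h1
  have hprod : (∏ r ∈ R, (℘[L] (b + r) - ℘[L] a)) * X L R b =
      (℘[L] b - ℘[L] a) ^ R.card * X L R c := by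
    unfold X
    rw [← Finset.prod_mul_distrib, Finset.prod_congr rfl hfac, Finset.prod_mul_distrib,
      Finset.prod_const]
  have hnum' : num L R (℘[L] a) b =
      (℘[L] b - ℘[L] a) * ∏ r ∈ R, (℘[L] (b + r) - ℘[L] a) := by
    rw [num, Finset.prod_insert (zero_notMem H), add_zero]
  rw [hnum'] at hnum
  have hXa : X L R a = ∏ r ∈ R, (℘[L] r - ℘[L] a) := rfl
  rw [← hXa] at hnum
  rw [pow_succ]
  linear_combination (℘[L] b - ℘[L] a) * (-1 : ℂ) * hprod + X L R b * hnum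

/-- `X m ≠ 0` for a half period `m` of `L`. -/
theorem X_ne_zero (H : IsReps L L' R) {m : ℕ} (hm : Odd m)
    (hmul : ∀ l ∈ L'.lattice, (m : ℂ) * l ∈ L.lattice) {a : ℂ}
    (ha : a ∉ L.lattice) (ha2 : 2 * a ∈ L.lattice) : X L R a ≠ 0 := by
  have ha' : a ∉ L'.lattice := IsReps.half_notMem hm hmul ha ha2
  obtain ⟨c, hc0, hc⟩ := exists_halfProd_eq L ha ha2
  unfold X
  rw [Finset.prod_ne_zero_iff]
  intro r hr h0
  have hrL : r ∉ L.lattice := H.notMem r hr
  have hra : r + a ∉ L.lattice := by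
    intro hmem
    apply ha'
    have : a = (r + a) - r := by ring
    rw [this]
    exact sub_mem (H.le hmem) (H.mem r hr)
  have := hc r hrL hra
  rw [halfProd, h0, mul_zero] at this
  exact hc0 this.symm

end Eval


/-! ### The discriminant identity -/

section Main

variable {L L' : PeriodPair} {R : Finset ℂ}

theorem e₁_def (L : PeriodPair) : e₁ L = ℘[L] (L.ω₁ / 2) := rfl
theorem e₂_def (L : PeriodPair) : e₂ L = ℘[L] (L.ω₂ / 2) := rfl
theorem e₃_def (L : PeriodPair) : e₃ L = ℘[L] ((L.ω₁ + L.ω₂) / 2) := rfl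

/-- `∏_{r ∈ R} ℘'[L] r ^ 4 = 16^|R| (X₁ X₂ X₃)²`. -/
theorem prod_deriv_pow_four (H : IsReps L L' R) :
    ∏ r ∈ R, ℘'[L] r ^ 4 =
      16 ^ R.card * (X L R (L.ω₁ / 2) * X L R (L.ω₂ / 2) * X L R ((L.ω₁ + L.ω₂) / 2)) ^ 2 := by
  have hfac : ∀ r ∈ R, ℘'[L] r ^ 4 =
      16 * ((℘[L] r - ℘[L] (L.ω₁ / 2)) * (℘[L] r - ℘[L] (L.ω₂ / 2)) *
        (℘[L] r - ℘[L] ((L.ω₁ + L.ω₂) / 2))) ^ 2 := by
    intro r hr
    have h1 := L.derivWeierstrassP_sq r (H.notMem r hr)
    have h2 := cubic_eq L (℘[L] r)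
    simp only [e₁_def, e₂_def, e₃_def] at h2
    have h3 : ℘'[L] r ^ 4 = (℘'[L] r ^ 2) ^ 2 := by ring
    rw [h3, h1, h2]
    ring
  rw [Finset.prod_congr rfl hfac, Finset.prod_mul_distrib, Finset.prod_const, Finset.prod_pow,
    Finset.prod_mul_distrib, Finset.prod_mul_distrib]
  rfl

/-- **The discriminant of a superlattice of odd index.**
`(g₂(L')³ - 27 g₃(L')²) · ∏_{r ∈ R} ℘'[L] r ^ 4 = (g₂(L)³ - 27 g₃(L)²) ^ (|R| + 1)`. -/
theorem disc_superlattice (H : IsReps L L' R) {m : ℕ} (hm : Odd m)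
    (hmul : ∀ l ∈ L'.lattice, (m : ℂ) * l ∈ L.lattice) :
    (L'.g₂ ^ 3 - 27 * L'.g₃ ^ 2) * ∏ r ∈ R, ℘'[L] r ^ 4 =
      (L.g₂ ^ 3 - 27 * L.g₃ ^ 2) ^ (R.card + 1) := by
  -- the three half periods of `L`
  have n1 : L.ω₁ / 2 ∉ L.lattice := L.ω₁_div_two_notMem_lattice
  have n2 : L.ω₂ / 2 ∉ L.lattice := L.ω₂_div_two_notMem_lattice
  have n3 : (L.ω₁ + L.ω₂) / 2 ∉ L.lattice := ω₃_div_two_notMem_lattice L
  have t1 : 2 * (L.ω₁ / 2) ∈ L.lattice := two_mul_ω₁_div_two_mem L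
  have t2 : 2 * (L.ω₂ / 2) ∈ L.lattice := two_mul_ω₂_div_two_mem L
  have t3 : 2 * ((L.ω₁ + L.ω₂) / 2) ∈ L.lattice := two_mul_ω₃_div_two_mem L
  have n1' : L.ω₁ / 2 ∉ L'.lattice := IsReps.half_notMem hm hmul n1 t1
  have n2' : L.ω₂ / 2 ∉ L'.lattice := IsReps.half_notMem hm hmul n2 t2
  have n3' : (L.ω₁ + L.ω₂) / 2 ∉ L'.lattice := IsReps.half_notMem hm hmul n3 t3
  have t1' : 2 * (L.ω₁ / 2) ∈ L'.lattice := H.le t1
  have t2' : 2 * (L.ω₂ / 2) ∈ L'.lattice := H.le t2
  have t3' : 2 * ((L.ω₁ + L.ω₂) / 2) ∈ L'.lattice := H.le t3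
  -- the three relations
  have r12 := pair_rel H hm hmul n1 t1 n2 t2 n3 t3
    (by have : L.ω₁ / 2 + L.ω₂ / 2 - (L.ω₁ + L.ω₂) / 2 = 0 := by ring
        rw [this]; exact zero_mem _)
  have r13 := pair_rel H hm hmul n1 t1 n3 t3 n2 t2
    (by have : L.ω₁ / 2 + (L.ω₁ + L.ω₂) / 2 - L.ω₂ / 2 = L.ω₁ := by ring
        rw [this]; exact L.ω₁_mem_lattice)
  have r23 := pair_rel H hm hmul n2 t2 n3 t3 n1 t1
    (by have : L.ω₂ / 2 + (L.ω₁ + L.ω₂) / 2 - L.ω₁ / 2 = L.ω₂ := by ring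
        rw [this]; exact L.ω₂_mem_lattice)
  have x1 := X_ne_zero H hm hmul n1 t1
  have x2 := X_ne_zero H hm hmul n2 t2
  have x3 := X_ne_zero H hm hmul n3 t3
  -- the discriminants
  have hΔ : L.g₂ ^ 3 - 27 * L.g₃ ^ 2 =
      16 * ((℘[L] (L.ω₂ / 2) - ℘[L] (L.ω₁ / 2)) ^ 2 *
        (℘[L] ((L.ω₁ + L.ω₂) / 2) - ℘[L] (L.ω₁ / 2)) ^ 2 *
        (℘[L] ((L.ω₁ + L.ω₂) / 2) - ℘[L] (L.ω₂ / 2)) ^ 2) := by
    rw [discr_eq L]
    simp only [e₁_def, e₂_def, e₃_def]
    ring
  have d12 : L.ω₂ / 2 - L.ω₁ / 2 ∉ L'.lattice := by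
    intro hmem
    apply n3'
    have : (L.ω₁ + L.ω₂) / 2 = (L.ω₂ / 2 - L.ω₁ / 2) + L.ω₁ := by ring
    rw [this]
    exact add_mem hmem (H.le L.ω₁_mem_lattice)
  have d13 : (L.ω₁ + L.ω₂) / 2 - L.ω₁ / 2 ∉ L'.lattice := by
    have : (L.ω₁ + L.ω₂) / 2 - L.ω₁ / 2 = L.ω₂ / 2 := by ring
    rw [this]
    exact n2'
  have d23 : (L.ω₁ + L.ω₂) / 2 - L.ω₂ / 2 ∉ L'.lattice := by
    have : (L.ω₁ + L.ω₂) / 2 - L.ω₂ / 2 = L.ω₁ / 2 := by ring
    rw [this]
    exact n1'
  have hΔ' : L'.g₂ ^ 3 - 27 * L'.g₃ ^ 2 =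
      16 * ((℘[L'] (L.ω₂ / 2) - ℘[L'] (L.ω₁ / 2)) ^ 2 *
        (℘[L'] ((L.ω₁ + L.ω₂) / 2) - ℘[L'] (L.ω₁ / 2)) ^ 2 *
        (℘[L'] ((L.ω₁ + L.ω₂) / 2) - ℘[L'] (L.ω₂ / 2)) ^ 2) := by
    rw [discr_of_three_roots (cubic_half_eq_zero L' n1' t1') (cubic_half_eq_zero L' n2' t2')
      (cubic_half_eq_zero L' n3' t3')
      (weierstrassP_half_ne L' n1' t1' n2' d12).symm
      (weierstrassP_half_ne L' n1' t1' n3' d13).symm
      (weierstrassP_half_ne L' n2' t2' n3' d23).symm]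
    ring
  rw [hΔ, hΔ', prod_deriv_pow_four H]
  -- abbreviations
  generalize ℘[L] (L.ω₂ / 2) - ℘[L] (L.ω₁ / 2) = a12 at *
  generalize ℘[L] ((L.ω₁ + L.ω₂) / 2) - ℘[L] (L.ω₁ / 2) = a13 at *
  generalize ℘[L] ((L.ω₁ + L.ω₂) / 2) - ℘[L] (L.ω₂ / 2) = a23 at *
  generalize ℘[L'] (L.ω₂ / 2) - ℘[L'] (L.ω₁ / 2) = b12 at *
  generalize ℘[L'] ((L.ω₁ + L.ω₂) / 2) - ℘[L'] (L.ω₁ / 2) = b13 at *
  generalize ℘[L'] ((L.ω₁ + L.ω₂) / 2) - ℘[L'] (L.ω₂ / 2) = b23 at *
  generalize X L R (L.ω₁ / 2) = X1 at *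
  generalize X L R (L.ω₂ / 2) = X2 at *
  generalize X L R ((L.ω₁ + L.ω₂) / 2) = X3 at *
  generalize R.card = k at *
  have hX : X1 * X2 * X3 ≠ 0 := mul_ne_zero (mul_ne_zero x1 x2) x3
  have hP : (a12 * a13 * a23) ^ (k + 1) = X1 * X2 * X3 * (b12 * b13 * b23) := by
    apply mul_left_cancel₀ hX
    calc X1 * X2 * X3 * (a12 * a13 * a23) ^ (k + 1)
        = (a12 ^ (k + 1) * X3) * (a13 ^ (k + 1) * X2) * (a23 ^ (k + 1) * X1) := by
          rw [mul_pow, mul_pow]; ring
      _ = (X1 * X2 * b12) * (X1 * X3 * b13) * (X2 * X3 * b23) := by rw [r12, r13, r23]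
      _ = X1 * X2 * X3 * (X1 * X2 * X3 * (b12 * b13 * b23)) := by ring
  have hR : (16 * (a12 ^ 2 * a13 ^ 2 * a23 ^ 2)) ^ (k + 1) =
      16 ^ (k + 1) * ((a12 * a13 * a23) ^ (k + 1)) ^ 2 := by
    rw [mul_pow, ← pow_mul, mul_comm (k + 1) 2, pow_mul]
    congr 1
    ring
  rw [hR, hP]
  ring

end Main

end Fermat.Agent.S15.E2.DiscLattice
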