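import Fermat.Agent.S15.E2.Glue
import Fermat.Agent.S15.E2.RedDict.Main
import Fermat.Agent.S15.E2.RedDict.Symm
import Fermat.Agent.Lib.FrobeniusExists
import Fermat.Agent.S15.A.Frame

/-!
# S15, block E2: the seam (C-E) of block [A]

`seamCE_of_inZero`: under the hypotheses of S15 and the hypothesis to be refuted
(`Q ∈ E⁰_A` at the auxiliary prime `ℓ`), the seam `S15.A.Frame.SeamCE p W Q` holds: the place
`x = (E, ⟨Q⟩)` of `X₀(p)` is rational, reduces to the cusp `0` at every `A' ∣ l` with `Q ∉ E⁰_{A'}`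
and to the cusp `∞` at every `A' ∣ l` with `Q ∈ E⁰_{A'}` (`l ≠ p` multiplicative for `W`).

The place is `Glue.exists_place`; its rationality is `RedDict.Main.smul_eq_of_inf` at `(ℓ, A)`
(uniqueness of the place above `j(E)` reducing to `∞`); the dictionary is
`RedDict.Main.seamCE_core` fed by `Glue.val_zero` / `Glue.val_inf`.
-/

set_option autoImplicit false
set_option linter.unusedSectionVars false
set_option linter.unusedVariables false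
set_option linter.style.haveILetI false

noncomputable section

namespace Fermat.Agent.S15.E2.SeamCE

open WeierstrassCurve WeierstrassCurve.Affine AlgebraicCurve ModularCurve
open Fermat.Agent.S58.Mult.Unipotent
open Fermat.Agent.S15.A.Frame
open Fermat.Agent.S15.E2.Glue

local notation "Qbar" => AlgebraicClosure ℚ
local notation "GQ" => (AlgebraicClosure ℚ ≃ₐ[ℚ] AlgebraicClosure ℚ)

/-- **The seam (C-E)**, in the context of the proof by contradiction of S15. -/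
theorem seamCE_of_inZero {p : ℕ} (hp : p.Prime) (hp2 : p ≠ 2) (W : WeierstrassCurve ℤ)
    (hΔ : W.Δ ≠ 0) (Q : ((W.map (Int.castRingHom ℚ))⁄(AlgebraicClosure ℚ)).Point)
    (hQfix : ∀ σ : AlgebraicClosure ℚ ≃ₐ[ℚ] AlgebraicClosure ℚ, σ • Q = Q)
    (hQord : addOrderOf Q = p)
    {ℓ : ℕ} (hℓ : ℓ.Prime) (hℓp : ℓ ≠ p) (hℓΔ : (ℓ : ℤ) ∣ W.Δ) (hℓc₄ : ¬ (ℓ : ℤ) ∣ W.c₄)
    (A : ValuationSubring (AlgebraicClosure ℚ)) (hA : A.LiesOverPrime ℓ)
    (hin : W.InZeroComponentAt A Q) :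
    haveI : NeZero p := ⟨hp.ne_zero⟩; SeamCE p W Q := by
  haveI : NeZero p := ⟨hp.ne_zero⟩
  have hQ0 : Q ≠ 0 := by
    rintro rfl
    rw [addOrderOf_zero] at hQord
    exact hp.one_lt.ne hQord
  have hNQ : p • Q = 0 := by
    rw [← hQord]
    exact addOrderOf_nsmul_eq_zero Q
  obtain ⟨x, hxa, hxb⟩ := exists_place W hΔ hp hp2 Q hQ0 hNQ
  have hb0 := jq_ne_zero W hℓ hℓΔ hℓc₄ hΔ A hA hp hp2 (Ne.symm hℓp) Q hQ0 hNQ hin
  have hℓN : ¬ ℓ ∣ p := fun h => hℓp ((Nat.prime_dvd_prime_iff_eq hℓ hp).mp h)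
  haveI : Fact ℓ.Prime := ⟨hℓ⟩
  refine ⟨x, ?_, ?_⟩
  · intro σ
    exact Fermat.Agent.S15.E2.RedDict.Main.smul_eq_of_inf hp hA hℓN hxa hxb
      (val_jW_gt_one W hℓ hℓΔ hℓc₄ hΔ A hA) hb0
      (val_inf W hℓ hℓΔ hℓc₄ hΔ A hA hp hp2 (Ne.symm hℓp) Q hQ0 hNQ hin) σ
      (jW_fixed σ) (jq_fixed hQfix p σ)
  · intro l hl hlp hlΔ hlc A' hA' h c0 hc0
    have core := Fermat.Agent.S15.E2.RedDict.Main.seamCE_core hp hlp hA' h hxa hxb
      (val_jW_gt_one W hl.out hlΔ hlc hΔ A' hA') hb0 hc0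
    exact ⟨fun hn => core.1 (val_zero W hl.out hlΔ hlc hΔ A' hA' hp hp2 Q hQ0 hNQ hn),
      fun hi => core.2 (val_inf W hl.out hlΔ hlc hΔ A' hA' hp hp2 (Ne.symm hlp) Q hQ0 hNQ hi)⟩

/-- **The seam (C-E)**, unconditionally: rationality of the place through the cusp `0` at a
valuation ring over `2` (where `Q ∉ E⁰` by the hypothesis `h2` of S15). -/
theorem seamCE {p : ℕ} (hp : p.Prime) (hp2 : p ≠ 2) (W : WeierstrassCurve ℤ)
    (hΔ : W.Δ ≠ 0) (Q : ((W.map (Int.castRingHom ℚ))⁄(AlgebraicClosure ℚ)).Point)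
    (hQfix : ∀ σ : AlgebraicClosure ℚ ≃ₐ[ℚ] AlgebraicClosure ℚ, σ • Q = Q)
    (hQord : addOrderOf Q = p)
    (h2Δ : (2 : ℤ) ∣ W.Δ) (h2c₄ : ¬ (2 : ℤ) ∣ W.c₄)
    (h2 : ∀ A : ValuationSubring (AlgebraicClosure ℚ), A.LiesOverPrime 2 →
      ¬ W.InZeroComponentAt A Q) :
    haveI : NeZero p := ⟨hp.ne_zero⟩; SeamCE p W Q := by
  haveI : NeZero p := ⟨hp.ne_zero⟩
  have hQ0 : Q ≠ 0 := by
    rintro rfl
    rw [addOrderOf_zero] at hQord
    exact hp.one_lt.ne hQord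
  have hNQ : p • Q = 0 := by
    rw [← hQord]
    exact addOrderOf_nsmul_eq_zero Q
  obtain ⟨x, hxa, hxb⟩ := exists_place W hΔ hp hp2 Q hQ0 hNQ
  obtain ⟨A2, hA2⟩ := Fermat.Agent.Lib.FrobeniusExists.exists_valuationSubring_liesOverPrime
    (L := Qbar) 2 Nat.prime_two
  have h2Δ' : ((2 : ℕ) : ℤ) ∣ W.Δ := by exact_mod_cast h2Δ
  have h2c' : ¬ ((2 : ℕ) : ℤ) ∣ W.c₄ := by exact_mod_cast h2c₄
  have hb0 := jq_ne_zero_of_not_inZero W Nat.prime_two h2Δ' h2c' hΔ A2 hA2 hp hp2 Q hQ0 hNQ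
    (h2 A2 hA2)
  have h2N : ¬ 2 ∣ p := fun h => hp2 ((Nat.prime_dvd_prime_iff_eq Nat.prime_two hp).mp h).symm
  haveI : Fact (2 : ℕ).Prime := ⟨Nat.prime_two⟩
  refine ⟨x, ?_, ?_⟩
  · intro σ
    exact Fermat.Agent.S15.E2.RedDict.Symm.smul_eq_of_zero' hp hA2 h2N hxa hxb
      (val_jW_gt_one W Nat.prime_two h2Δ' h2c' hΔ A2 hA2)
      (val_zero W Nat.prime_two h2Δ' h2c' hΔ A2 hA2 hp hp2 Q hQ0 hNQ (h2 A2 hA2)) σ
      (jW_fixed σ) (jq_fixed hQfix p σ)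
  · intro l hl hlp hlΔ hlc A' hA' h c0 hc0
    have core := Fermat.Agent.S15.E2.RedDict.Main.seamCE_core hp hlp hA' h hxa hxb
      (val_jW_gt_one W hl.out hlΔ hlc hΔ A' hA') hb0 hc0
    exact ⟨fun hn => core.1 (val_zero W hl.out hlΔ hlc hΔ A' hA' hp hp2 Q hQ0 hNQ hn),
      fun hi => core.2 (val_inf W hl.out hlΔ hlc hΔ A' hA' hp hp2 (Ne.symm hlp) Q hQ0 hNQ hi)⟩

end Fermat.Agent.S15.E2.SeamCE
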