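import Fermat.Agent.S15.E2.Unif.Main
import Fermat.Agent.S15.E2.Local.Inf
import Fermat.Agent.S15.E1.Generator
import Fermat.Agent.S15.E1.PlaceAtTau
import Fermat.Agent.S13.Local.RationalCoords
import Fermat.Agent.S13.CU.TorsionQbar

/-!
# S15, block E2: the place `(E, ⟨Q⟩)` of `X₀(N)` with its values, and the two local statements

`W : WeierstrassCurve ℤ`, `Δ ≠ 0`, `E = W_ℚ̄`, `Q` a point of odd prime order `N` of `E`.
`a = j(E)`, `b = jq E N Q` (Velu's invariant of `E/⟨Q⟩` as a number).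

* `exists_place`: a place `x` of `X₀(N)` with `j(x) = a`, `j_N(x) = b`;
* `jq_fixed`: `b` is Galois-fixed when `Q` is;
* `val_zero` / `val_inf`: at a multiplicative prime `q` of `W` and `A ∣ q`:
  `b / a^N ∈ m_A` if `Q ∉ E⁰_A`, and `a / b^N ∈ m_A` if `Q ∈ E⁰_A` (`q ≠ N`).
-/

set_option autoImplicit false
set_option linter.unusedSectionVars false
set_option linter.unusedVariables false

open scoped Classical

noncomputable section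

namespace Fermat.Agent.S15.E2.Glue

open WeierstrassCurve WeierstrassCurve.Affine AlgebraicCurve ModularCurve
open Fermat.Agent.S13.Local.NodalInst
open Fermat.Agent.S58.Mult.Unipotent
open Fermat.Agent.S15.E2.Local.Quant
open Fermat.Agent.S15.E2.Unif.Main
open Fermat.Agent.S24.DegreeAlg

local notation "Qbar" => AlgebraicClosure ℚ
local notation "GQ" => (AlgebraicClosure ℚ ≃ₐ[ℚ] AlgebraicClosure ℚ)

variable (W : WeierstrassCurve ℤ)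

/-- The `j`-invariant of `E = W_ℚ̄`. -/
def jW : Qbar := ((EQ W)⁄Qbar).c₄ ^ 3 / ((EQ W)⁄Qbar).Δ

/-- **The place `(E, ⟨Q⟩)` of `X₀(N)`.** -/
theorem exists_place (hΔ0 : W.Δ ≠ 0) {N : ℕ} [NeZero N] (hN : N.Prime) (hN2 : N ≠ 2)
    (Q : ((EQ W)⁄Qbar).Point) (hQ0 : Q ≠ 0) (hNQ : N • Q = 0) :
    ∃ x : Place Qbar ↥(modularFunctionFieldBar N),
      jgen N - algebraMap Qbar ↥(modularFunctionFieldBar N) (jW W)
        ∈ x.toValuationSubring.nonunits ∧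
      jdivF N ⟨N, dvd_rfl⟩ - algebraMap Qbar ↥(modularFunctionFieldBar N)
        (jq ((EQ W)⁄Qbar) N Q) ∈ x.toValuationSubring.nonunits := by
  have hΔ : ((EQ W)⁄Qbar).Δ ≠ 0 := by
    rw [Δ_eq]
    exact_mod_cast hΔ0
  set ι : Qbar →+* ℂ := (Fermat.Agent.S13.CU.Descent.qbarEmb : Qbar →+* ℂ) with hι
  obtain ⟨L, z, hz, hNz, hj, hj'⟩ := exists_lattice ((EQ W)⁄Qbar) hΔ ι hN hN2 Q hQ0 hNQ
  obtain ⟨L', τ, τ', hL', h1, h2, -, -⟩ :=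
    Fermat.Agent.S15.E1.Generator.exists_tau_of_generator L hN hz hNz
  have hb := hj' L' hL'
  refine Fermat.Agent.S15.E1.PlaceAtTau.exists_place N ι τ (jW W) (jq ((EQ W)⁄Qbar) N Q) ?_ ?_
  · rw [← h1]
    exact hj.symm
  · rw [← h2]
    exact hb.symm

/-! ### Rationality -/

section Rational

variable {W}

theorem tP_fixed {P : ((EQ W)⁄Qbar).Point} (h : ∀ σ : GQ, σ • P = P) (σ : GQ) :
    σ (tP ((EQ W)⁄Qbar) P) = tP ((EQ W)⁄Qbar) P := by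
  have hx : σ (ptX ((EQ W)⁄Qbar) P) = ptX ((EQ W)⁄Qbar) P := by
    rw [← ptX_smul, h σ]
  simp only [tP, WeierstrassCurve.b₂, WeierstrassCurve.b₄, a₁_eq, a₂_eq, a₃_eq, a₄_eq, map_add,
    map_mul, map_pow, map_intCast, map_ofNat, hx]

theorem psi2_fixed {P : ((EQ W)⁄Qbar).Point} (h : ∀ σ : GQ, σ • P = P) (σ : GQ) :
    σ (psi2 ((EQ W)⁄Qbar) P) = psi2 ((EQ W)⁄Qbar) P := by
  have hx : σ (ptX ((EQ W)⁄Qbar) P) = ptX ((EQ W)⁄Qbar) P := by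
    rw [← ptX_smul, h σ]
  have hy : σ (ptY ((EQ W)⁄Qbar) P) = ptY ((EQ W)⁄Qbar) P := by
    rw [← ptY_smul, h σ]
  simp only [psi2, a₁_eq, a₃_eq, map_add, map_mul, map_intCast, map_ofNat, hx, hy]

theorem jW_fixed (σ : GQ) : σ (jW W) = jW W := by
  simp only [jW, c₄_eq, Δ_eq, map_div₀, map_pow, map_intCast]

/-- **Velu's invariant of the quotient by a rational point is rational.** -/
theorem jq_fixed {Q : ((EQ W)⁄Qbar).Point} (h : ∀ σ : GQ, σ • Q = Q) (N : ℕ) (σ : GQ) :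
    σ (jq ((EQ W)⁄Qbar) N Q) = jq ((EQ W)⁄Qbar) N Q := by
  have hk : ∀ k : ℕ, ∀ τ : GQ, τ • (k • Q) = k • Q := fun k τ =>
    Fermat.Agent.S13.Local.RationalCoords.smul_nsmul_of_fixed h k τ
  have hs : ∑ k ∈ Finset.Icc 1 (N - 1), σ (tP ((EQ W)⁄Qbar) (k • Q))
      = ∑ k ∈ Finset.Icc 1 (N - 1), tP ((EQ W)⁄Qbar) (k • Q) :=
    Finset.sum_congr rfl fun k _ => tP_fixed (hk k) σ
  have hp : ∏ k ∈ Finset.Icc 1 (N - 1), σ (psi2 ((EQ W)⁄Qbar) (k • Q)) ^ 4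
      = ∏ k ∈ Finset.Icc 1 (N - 1), psi2 ((EQ W)⁄Qbar) (k • Q) ^ 4 :=
    Finset.prod_congr rfl fun k _ => by rw [psi2_fixed (hk k) σ]
  simp only [Fermat.Agent.S15.E2.Unif.Main.jq, c4q, dq, map_div₀, map_pow, map_add, map_mul,
    map_sum, map_prod, map_ofNat, c₄_eq, Δ_eq, map_intCast]
  rw [hs, hp]

end Rational

/-! ### The two local statements -/

section Local

variable {q : ℕ} (hq : q.Prime) (hqΔ : (q : ℤ) ∣ W.Δ) (hqc : ¬ (q : ℤ) ∣ W.c₄) (hΔ0 : W.Δ ≠ 0)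
  (A : ValuationSubring Qbar) (hA : A.LiesOverPrime q)

include hq hqΔ hqc hΔ0 hA

/-- `j(E)` is not integral at a multiplicative prime. -/
theorem val_jW_gt_one : 1 < A.valuation (jW W) := by
  have h1 : A.valuation (((EQ W)⁄Qbar).c₄) = 1 := by
    rw [c₄_eq]
    exact Fermat.Agent.S05.LocalVal.intCast_valuation_eq_one hq hA hqc
  have h2 : A.valuation (((EQ W)⁄Qbar).Δ) < 1 := by
    rw [Δ_eq]
    exact Fermat.Agent.S05.LocalVal.intCast_valuation_lt_one hq hA hqΔ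
  have h3 : A.valuation (((EQ W)⁄Qbar).Δ) ≠ 0 := by
    rw [Ne, map_eq_zero, Δ_eq]
    exact_mod_cast hΔ0
  rw [jW, map_div₀, map_pow, h1, one_pow, one_div]
  exact (one_lt_inv₀ (zero_lt_iff.mpr h3)).mpr h2

/-- **Case `Q ∉ E⁰`**: `j' / j^N ∈ m_A` (cusp `0`). -/
theorem val_zero {N : ℕ} (hN : N.Prime) (hN2 : N ≠ 2) (Q : ((EQ W)⁄Qbar).Point) (hQ0 : Q ≠ 0)
    (hNQ : N • Q = 0) (hQ : ¬ W.InZeroComponentAt A Q) :
    A.valuation (Fermat.Agent.S15.E2.Unif.Main.jq ((EQ W)⁄Qbar) N Q / jW W ^ N) < 1 :=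
  Fermat.Agent.S15.E2.Local.Zero.quot_mem W hq hqΔ hqc hΔ0 A hA hN Q hNQ hQ
    (c4q ((EQ W)⁄Qbar) N Q) (dq ((EQ W)⁄Qbar) N Q) rfl (dq_mul ((EQ W)⁄Qbar) hN hN2 hQ0 hNQ)

omit hq hqΔ hqc hA in
/-- The nonzero `N`-torsion as a `Finset`, with (S3a). -/
theorem exists_torsion_finset {N : ℕ} (hN : N.Prime) :
    ∃ T : Finset ((EQ W)⁄Qbar).Point, (∀ P, P ∈ T ↔ N • P = 0 ∧ P ≠ 0) ∧
      120 * ∑ P ∈ T, tP ((EQ W)⁄Qbar) P = ((N : Qbar) ^ 4 - 1) * ((EQ W)⁄Qbar).c₄ := by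
  have hΔ : ((EQ W)⁄Qbar).Δ ≠ 0 := by
    rw [Δ_eq]
    exact_mod_cast hΔ0
  have hfin : Finite (Submodule.torsionBy ℤ ((EQ W)⁄Qbar).toAffine.Point N) :=
    (Fermat.Agent.S13.CU.TorsionQbar.torsionCard_qbar ((EQ W)⁄Qbar) hΔ N hN.pos).finite hN.pos
  have hfin' : {P : ((EQ W)⁄Qbar).toAffine.Point | N • P = 0 ∧ P ≠ 0}.Finite := by
    have h1 : (Submodule.torsionBy ℤ ((EQ W)⁄Qbar).toAffine.Point N :
        Set ((EQ W)⁄Qbar).toAffine.Point).Finite := hfin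
    refine h1.subset fun P hP => ?_
    exact (Fermat.Agent.S13.Iface.mem_torsionBy_iff_nsmul _ N P).mpr hP.1
  have hT : ∀ P, P ∈ hfin'.toFinset ↔ N • P = 0 ∧ P ≠ 0 := fun P => by
    rw [Set.Finite.mem_toFinset]
    rfl
  exact ⟨hfin'.toFinset, hT,
    sum_tP_torsion ((EQ W)⁄Qbar) hΔ Fermat.Agent.S13.CU.TorsionQbar.iota hN.ne_zero _ hT⟩

/-- **Case `Q ∈ E⁰`**: `j / j'^N ∈ m_A` (cusp `∞`). -/
theorem val_inf {N : ℕ} (hN : N.Prime) (hN2 : N ≠ 2) (hNq : N ≠ q)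
    (Q : ((EQ W)⁄Qbar).Point) (hQ0 : Q ≠ 0) (hNQ : N • Q = 0) (hQ : W.InZeroComponentAt A Q) :
    A.valuation (jW W / Fermat.Agent.S15.E2.Unif.Main.jq ((EQ W)⁄Qbar) N Q ^ N) < 1 := by
  obtain ⟨T, hT, hS3a⟩ := exists_torsion_finset W hΔ0 hN
  exact Fermat.Agent.S15.E2.Local.Inf.quot_mem W hq hqΔ hqc hΔ0 A hA hN hN2 hNq Q hQ0 hNQ hQ
    T hT hS3a (c4q ((EQ W)⁄Qbar) N Q) (dq ((EQ W)⁄Qbar) N Q) rfl
    (dq_mul ((EQ W)⁄Qbar) hN hN2 hQ0 hNQ)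

/-- In the case `Q ∈ E⁰`, `j' ≠ 0`. -/
theorem jq_ne_zero {N : ℕ} (hN : N.Prime) (hN2 : N ≠ 2) (hNq : N ≠ q)
    (Q : ((EQ W)⁄Qbar).Point) (hQ0 : Q ≠ 0) (hNQ : N • Q = 0) (hQ : W.InZeroComponentAt A Q) :
    Fermat.Agent.S15.E2.Unif.Main.jq ((EQ W)⁄Qbar) N Q ≠ 0 := by
  obtain ⟨T, hT, hS3a⟩ := exists_torsion_finset W hΔ0 hN
  have hc := Fermat.Agent.S15.E2.Local.Inf.val_c4'_eq_one W hq hqΔ hqc hΔ0 A hA hN hN2 hNq Q hQ0
    hNQ hQ T hT hS3a (c4q ((EQ W)⁄Qbar) N Q) rfl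
  have hc0 : c4q ((EQ W)⁄Qbar) N Q ≠ 0 := by
    intro h0
    rw [h0, map_zero] at hc
    exact zero_ne_one hc
  have hΔ : ((EQ W)⁄Qbar).Δ ≠ 0 := by
    rw [Δ_eq]
    exact_mod_cast hΔ0
  have hd0 : dq ((EQ W)⁄Qbar) N Q ≠ 0 := by
    intro h0
    have := dq_mul ((EQ W)⁄Qbar) hN hN2 hQ0 hNQ
    rw [h0, zero_mul] at this
    exact pow_ne_zero N hΔ this.symm
  exact div_ne_zero (pow_ne_zero 3 hc0) hd0

/-- In the case `Q ∈ E⁰`, `j'` is not integral either. -/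
theorem val_jq_gt_one {N : ℕ} (hN : N.Prime) (hN2 : N ≠ 2) (hNq : N ≠ q)
    (Q : ((EQ W)⁄Qbar).Point) (hQ0 : Q ≠ 0) (hNQ : N • Q = 0) (hQ : W.InZeroComponentAt A Q) :
    1 < A.valuation (Fermat.Agent.S15.E2.Unif.Main.jq ((EQ W)⁄Qbar) N Q) := by
  have h1 := val_inf W hq hqΔ hqc hΔ0 A hA hN hN2 hNq Q hQ0 hNQ hQ
  have h2 := val_jW_gt_one W hq hqΔ hqc hΔ0 A hA
  have h0 : A.valuation (Fermat.Agent.S15.E2.Unif.Main.jq ((EQ W)⁄Qbar) N Q) ^ N ≠ 0 := by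
    apply pow_ne_zero
    rw [Ne, map_eq_zero]
    exact jq_ne_zero W hq hqΔ hqc hΔ0 A hA hN hN2 hNq Q hQ0 hNQ hQ
  by_contra hle
  rw [not_lt] at hle
  have h3 : A.valuation (Fermat.Agent.S15.E2.Unif.Main.jq ((EQ W)⁄Qbar) N Q) ^ N ≤ 1 :=
    pow_le_one₀ zero_le hle
  rw [map_div₀, map_pow, div_lt_one₀ (zero_lt_iff.mpr h0)] at h1
  exact absurd (lt_of_lt_of_le (lt_trans h2 h1) h3) (lt_irrefl _)

/-- In the case `Q ∉ E⁰`, `j' ≠ 0` as well (`c₄'` is a unit). -/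
theorem jq_ne_zero_of_not_inZero {N : ℕ} (hN : N.Prime) (hN2 : N ≠ 2)
    (Q : ((EQ W)⁄Qbar).Point) (hQ0 : Q ≠ 0) (hNQ : N • Q = 0) (hQ : ¬ W.InZeroComponentAt A Q) :
    Fermat.Agent.S15.E2.Unif.Main.jq ((EQ W)⁄Qbar) N Q ≠ 0 := by
  have hc4 : A.valuation (((EQ W)⁄Qbar).c₄) = 1 := by
    rw [c₄_eq]
    exact Fermat.Agent.S05.LocalVal.intCast_valuation_eq_one hq hA hqc
  have ht : ∀ k ∈ Finset.Icc 1 (N - 1), A.valuation (tP ((EQ W)⁄Qbar) (k • Q)) < 1 :=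
    fun k hk => (Fermat.Agent.S15.E2.Local.Zero.at_node W hq hqΔ hqc hΔ0 A hA hN Q hNQ hQ
      (not_dvd_of_mem_Icc hk)).2.2.2
  have hsum : A.valuation (∑ k ∈ Finset.Icc 1 (N - 1), tP ((EQ W)⁄Qbar) (k • Q)) < 1 :=
    Valuation.map_sum_lt A.valuation one_ne_zero ht
  have h120 : A.valuation ((120 : Qbar) *
      ∑ k ∈ Finset.Icc 1 (N - 1), tP ((EQ W)⁄Qbar) (k • Q)) < 1 := by
    rw [map_mul]
    have h1 : A.valuation (120 : Qbar) ≤ 1 := by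
      have := Fermat.Agent.S15.E2.Local.Zero.val_natCast_le_one A.valuation 120
      rwa [Nat.cast_ofNat] at this
    calc A.valuation (120 : Qbar) * _ ≤ 1 * _ := mul_le_mul_left h1 _
      _ = _ := one_mul _
      _ < 1 := hsum
  have hc : A.valuation (c4q ((EQ W)⁄Qbar) N Q) = 1 := by
    rw [c4q, Valuation.map_add_eq_of_lt_left _ (by rw [hc4]; exact h120), hc4]
  have hc0 : c4q ((EQ W)⁄Qbar) N Q ≠ 0 := by
    intro h0
    rw [h0, map_zero] at hc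
    exact zero_ne_one hc
  have hΔ : ((EQ W)⁄Qbar).Δ ≠ 0 := by
    rw [Δ_eq]
    exact_mod_cast hΔ0
  have hd0 : dq ((EQ W)⁄Qbar) N Q ≠ 0 := by
    intro h0
    have := dq_mul ((EQ W)⁄Qbar) hN hN2 hQ0 hNQ
    rw [h0, zero_mul] at this
    exact pow_ne_zero N hΔ this.symm
  exact div_ne_zero (pow_ne_zero 3 hc0) hd0

end Local

end Fermat.Agent.S15.E2.Glue
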